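import Fermat.Agent.SharpMoments.ExpMoment
import Fermat.Agent.ZetaUpper.PrimeSums

/-!
# The blocks of primes in Harper's argument

With `u i = 2^i / √L` the primes are cut at `T ^ (u i ^ 4)`. Either some rare sum is large, or
there is a level `j` so that the sums of the blocks up to `j` are small and, if `j` is not the last
level, one sum of the block `j + 1` is large; the squares of primes go in dyadic blocks.
-/

set_option autoImplicit false

noncomputable section

namespace FA.SharpMoments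

open Finset
open FA.ErdosKac (primesUpTo mem_primesUpTo)
open FA.SelbergCLT (primePoly sqMass)
open FA.ZetaUpper (lineCoeff squareCoeff highPrimes lineCoeff_mem squareCoeff_mem prime_le_self)
open scoped Real

/-- `2 ^ i / √L`. -/
def level (L : ℝ) (i : ℕ) : ℝ := 2 ^ i / √L

/-- `T ^ (u i ^ 4)`, as `l = log T`. -/
def cut (L l : ℝ) (i : ℕ) : ℝ := Real.exp (level L i ^ 4 * l)

/-- The lower end of the block `i`. -/
def lowCut (L l : ℝ) (Q i : ℕ) : ℝ := if i = 0 then (Q : ℝ) else cut L l (i - 1)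

/-- The block `i`, without the primes `≤ Q`. -/
def block (L l : ℝ) (Q i : ℕ) : Finset ℕ := highPrimes (cut L l i) (lowCut L l Q i)

/-- The degree of the truncated exponential on the block `i`. -/
def degree (k L : ℝ) (i : ℕ) : ℕ := ⌈16 * (k + 1) / level L i ^ 3⌉₊

/-- Half the moment used when the block `i` is large. -/
def failExp (L : ℝ) (i : ℕ) : ℕ := ⌊1 / (20 * level L i ^ 4)⌋₊

/-- The primes in `(2 ^ (b - 1), 2 ^ b]`. -/
def squareBlock (b : ℕ) : Finset ℕ := primesUpTo (2 ^ b) \ primesUpTo (2 ^ (b - 1))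

/-- The primes in `(2 ^ B, √x]`. -/
def squareTail (x : ℝ) (B : ℕ) : Finset ℕ := primesUpTo ⌊√x⌋₊ \ primesUpTo (2 ^ B)

/-- Half the moment used when a dyadic block of squares is large. -/
def squareExp (b : ℕ) : ℕ := ⌊(3 / 2 : ℝ) ^ b⌋₊

variable {k L l : ℝ}

theorem level_pos (hL : 0 < L) (i : ℕ) : 0 < level L i :=
  div_pos (pow_pos two_pos i) (Real.sqrt_pos.2 hL)

theorem level_succ (L : ℝ) (i : ℕ) : level L (i + 1) = 2 * level L i := by
  rw [level, level, pow_succ]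
  ring

theorem level_mono (L : ℝ) : Monotone (level L) := fun _ _ h =>
  div_le_div_of_nonneg_right (pow_le_pow_right₀ one_le_two h) (Real.sqrt_nonneg L)

theorem level_zero_pow (hL : 0 < L) : level L 0 ^ 4 = 1 / L ^ 2 := by
  rw [level, pow_zero, div_pow, one_pow, show √L ^ 4 = (√L ^ 2) ^ 2 by ring, Real.sq_sqrt hL.le]

theorem sum_level_le (hL : 0 < L) (j : ℕ) :
    ∑ i ∈ range (j + 1), level L i ≤ 2 * level L j := by
  induction j with
  | zero =>
    rw [sum_range_one]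
    linarith [level_pos hL 0]
  | succ j ih =>
    rw [sum_range_succ, level_succ]
    linarith

theorem cut_mono (hl : 0 ≤ l) : Monotone (cut L l) := fun i _ h =>
  Real.exp_le_exp.2 (mul_le_mul_of_nonneg_right
    (pow_le_pow_left₀ (div_nonneg (pow_nonneg zero_le_two i) (Real.sqrt_nonneg L))
      (level_mono L h) 4) hl)

theorem lowCut_le (hl : 0 ≤ l) {Q : ℕ} (hQ : (Q : ℝ) ≤ cut L l 0) (i : ℕ) :
    lowCut L l Q i ≤ cut L l i := by
  rcases Nat.eq_zero_or_pos i with rfl | hi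
  · simpa [lowCut] using hQ
  · rw [lowCut, if_neg hi.ne']
    exact cut_mono hl (Nat.sub_le i 1)

theorem block_succ (L l : ℝ) (Q Q' i : ℕ) : block L l Q (i + 1) = block L l Q' (i + 1) := by
  simp [block, lowCut]

theorem mem_block {Q i p : ℕ} : p ∈ block L l Q i ↔
    p.Prime ∧ p ≤ ⌊cut L l i⌋₊ ∧ ⌊lowCut L l Q i⌋₊ < p := by
  rw [block, highPrimes, mem_sdiff, mem_primesUpTo, mem_primesUpTo]
  constructor
  · rintro ⟨⟨h1, h2⟩, h3⟩
    exact ⟨h1, h2, not_le.1 fun h => h3 ⟨h1, h⟩⟩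
  · rintro ⟨h1, h2, h3⟩
    exact ⟨⟨h1, h2⟩, fun h => absurd h.2 (not_le.2 h3)⟩

theorem le_cut_of_mem {Q i p : ℕ} (hp : p ∈ block L l Q i) : (p : ℝ) ≤ cut L l i :=
  (Nat.cast_le.2 (mem_block.1 hp).2.1).trans (Nat.floor_le (Real.exp_pos _).le)

theorem block_disjoint (hl : 0 ≤ l) {Q Q' i i' : ℕ} (h : i < i') :
    Disjoint (block L l Q i) (block L l Q' i') := by
  refine Finset.disjoint_left.2 fun p hp hp' => ?_
  have h1 := (mem_block.1 hp).2.1
  have h2 := (mem_block.1 hp').2.2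
  rw [lowCut, if_neg (by omega)] at h2
  exact absurd (h1.trans (Nat.floor_le_floor (cut_mono hl (show i ≤ i' - 1 by omega))))
    (not_le.2 h2)

theorem block_disjoint_small (hl : 0 ≤ l) {Q i : ℕ} (hQ : (Q : ℝ) ≤ cut L l 0) :
    Disjoint (block L l Q i) (primesUpTo Q) := by
  refine Finset.disjoint_left.2 fun p hp hp' => ?_
  have h1 := (mem_primesUpTo.1 hp').2
  have h2 := (mem_block.1 hp).2.2
  have h3 : Q ≤ ⌊lowCut L l Q i⌋₊ := by
    rcases Nat.eq_zero_or_pos i with rfl | hi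
    · simp [lowCut]
    · rw [lowCut, if_neg hi.ne']
      exact Nat.le_floor (hQ.trans (cut_mono hl (Nat.zero_le _)))
  omega

/-- A sum over the primes cut at the points `c i`. -/
theorem sum_primesUpTo_cuts {M : Type*} [AddCommMonoid M] (f : ℕ → M) (c : ℕ → ℕ) (n : ℕ)
    (hc : ∀ i < n, c i ≤ c (i + 1)) :
    ∑ p ∈ primesUpTo (c n), f p = ∑ p ∈ primesUpTo (c 0), f p +
      ∑ i ∈ range n, ∑ p ∈ primesUpTo (c (i + 1)) \ primesUpTo (c i), f p := by
  induction n with
  | zero => simp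
  | succ n ih =>
    rw [sum_range_succ, ← add_assoc, ← ih fun i hi => hc i (Nat.lt_succ_of_lt hi),
      add_comm (∑ p ∈ primesUpTo (c n), f p), sum_sdiff fun p hp => mem_primesUpTo.2
        ⟨(mem_primesUpTo.1 hp).1, (mem_primesUpTo.1 hp).2.trans (hc n (Nat.lt_succ_self n))⟩]

theorem sum_primesUpTo_cut {M : Type*} [AddCommMonoid M] (f : ℕ → M) (hl : 0 ≤ l)
    {Q : ℕ} (hQ : (Q : ℝ) ≤ cut L l 0) (j : ℕ) :
    ∑ p ∈ primesUpTo ⌊cut L l j⌋₊, f p =
      ∑ p ∈ primesUpTo Q, f p + ∑ i ∈ range (j + 1), ∑ p ∈ block L l Q i, f p := by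
  have h := sum_primesUpTo_cuts f (fun i => if i = 0 then Q else ⌊cut L l (i - 1)⌋₊) (j + 1)
    fun i _ => by
      rcases Nat.eq_zero_or_pos i with rfl | hi
      · simpa using Nat.le_floor hQ
      · simp only [if_neg hi.ne', Nat.succ_ne_zero, if_false, Nat.add_sub_cancel]
        exact Nat.floor_le_floor (cut_mono hl (Nat.sub_le i 1))
  simp only [Nat.succ_ne_zero, if_false, Nat.add_sub_cancel] at h
  rw [h]
  refine congrArg (_ + ·) (sum_congr rfl fun i _ => sum_congr ?_ fun _ _ => rfl)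
  rw [block, highPrimes, lowCut]
  rcases Nat.eq_zero_or_pos i with rfl | hi
  · simp
  · simp [if_neg hi.ne']

theorem sum_primesUpTo_squares {M : Type*} [AddCommMonoid M] (f : ℕ → M) {x : ℝ} {m B : ℕ}
    (hm : m ≤ B) (hB : ((2 ^ B : ℕ) : ℝ) ≤ √x) :
    ∑ p ∈ primesUpTo ⌊√x⌋₊, f p = ∑ p ∈ primesUpTo (2 ^ m), f p +
      ∑ b ∈ Ioc m B, ∑ p ∈ squareBlock b, f p + ∑ p ∈ squareTail x B, f p := by
  have h := sum_primesUpTo_cuts f (fun i => 2 ^ (m + i)) (B - m) fun i _ =>
    Nat.pow_le_pow_right two_pos (by omega)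
  simp only [Nat.add_sub_cancel' hm, Nat.add_zero] at h
  have e : ∑ b ∈ Ioc m B, ∑ p ∈ squareBlock b, f p = ∑ i ∈ range (B - m),
      ∑ p ∈ primesUpTo (2 ^ (m + (i + 1))) \ primesUpTo (2 ^ (m + i)), f p := by
    refine sum_nbij' (fun b => b - (m + 1)) (fun i => m + (i + 1)) (fun b hb => ?_) (fun i hi => ?_)
      (fun b hb => ?_) (fun i hi => ?_) fun b hb => ?_ <;>
      simp only [mem_Ioc, mem_range] at *
    · omega
    · omega
    · omega
    · omega
    · rw [squareBlock, show m + (b - (m + 1) + 1) = b by omega,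
        show m + (b - (m + 1)) = b - 1 by omega]
  rw [e, ← h, squareTail, add_comm, sum_sdiff fun p hp => mem_primesUpTo.2
    ⟨(mem_primesUpTo.1 hp).1, (mem_primesUpTo.1 hp).2.trans (Nat.le_floor hB)⟩]

theorem norm_primePoly_small_le {Q : ℕ} {r : ℕ → ℝ}
    (hr : ∀ p ∈ primesUpTo Q, 0 ≤ r p ∧ r p ≤ 1 / √(p : ℝ)) (t : ℝ) :
    ‖primePoly (primesUpTo Q) r t‖ ≤ 2 * √(Q : ℝ) := by
  refine (norm_sum_le_of_le _ fun p hp => ?_).trans ((sum_le_sum_of_subset_of_nonneg
    (show primesUpTo Q ⊆ Icc 1 Q from filter_subset _ _) fun p _ _ => by positivity).trans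
      (FA.Resonance.sum_inv_sqrt_le Q))
  rw [norm_mul, FA.Resonance.norm_wave, mul_one, Complex.norm_real,
    Real.norm_of_nonneg (hr p hp).1]
  exact (hr p hp).2

/-- The rare sums. -/
def rareSet (L l : ℝ) (I B : ℕ) : Set ℝ :=
  (⋃ i ∈ range (I + 1), ⋃ m ∈ range (B + 1), {t : ℝ | 1 / level L 0 ^ 3 <
    ‖primePoly (block L l (2 ^ m) 0) (lineCoeff (cut L l i)) t‖}) ∪
  ⋃ i ∈ range (I + 1), {t : ℝ | 1 <
    ‖primePoly (squareTail (cut L l i) B) (squareCoeff (cut L l i)) (2 * t)‖}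

/-- The truncated exponentials up to the level `j`. -/
def expTerm (k L l : ℝ) (j m : ℕ) (t : ℝ) : ℝ := ∏ i ∈ range (j + 1),
  truncExp (degree k L i) (k * (primePoly (block L l (2 ^ m) i) (lineCoeff (cut L l j)) t).re) ^ 2

/-- A sum of the block `j + 1` is large. -/
def failTerm (L l : ℝ) (I j : ℕ) (t : ℝ) : ℝ := if j < I then
  ∑ i ∈ Icc (j + 1) I, (‖primePoly (block L l 1 (j + 1)) (lineCoeff (cut L l i)) t‖ /
    (1 / level L (j + 1) ^ 3)) ^ (2 * failExp L (j + 1)) else 1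

/-- The `m`th dyadic block of squares is large. -/
def badTerm (L l : ℝ) (j m : ℕ) (t : ℝ) : ℝ := if m = 0 then 1 else
  (‖primePoly (squareBlock m) (squareCoeff (cut L l j)) (2 * t)‖ / (9 / 10 : ℝ) ^ m) ^
    (2 * squareExp m)

theorem expTerm_nonneg (k L l : ℝ) (j m : ℕ) (t : ℝ) : 0 ≤ expTerm k L l j m t :=
  prod_nonneg fun _ _ => sq_nonneg _

theorem failTerm_nonneg (L l : ℝ) (I j : ℕ) (t : ℝ) : 0 ≤ failTerm L l I j t := by
  rw [failTerm]
  split_ifs
  exacts [sum_nonneg fun _ _ => Even.pow_nonneg (even_two_mul _) _, zero_le_one]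

theorem badTerm_nonneg (L l : ℝ) (j m : ℕ) (t : ℝ) : 0 ≤ badTerm L l j m t := by
  rw [badTerm]
  split_ifs
  exacts [zero_le_one, Even.pow_nonneg (even_two_mul _) _]

/-- Off the rare set: the level and the dyadic block. -/
theorem exists_level_block (hL : 0 < L) {I B : ℕ} {t : ℝ}
    (ht : t ∉ rareSet L l I B) : ∃ j ≤ I, ∃ m ≤ B,
      (∀ i ≤ j, ‖primePoly (block L l (2 ^ m) i) (lineCoeff (cut L l j)) t‖ ≤
        1 / level L i ^ 3) ∧
      (∀ b ∈ Ioc m B, ‖primePoly (squareBlock b) (squareCoeff (cut L l j)) (2 * t)‖ ≤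
        (9 / 10 : ℝ) ^ b) ∧
      ‖primePoly (squareTail (cut L l j) B) (squareCoeff (cut L l j)) (2 * t)‖ ≤ 1 ∧
      1 ≤ failTerm L l I j t ∧ 1 ≤ badTerm L l j m t := by
  classical
  simp only [rareSet, Set.mem_union, Set.mem_iUnion, Set.mem_ofPred_eq, not_or, not_exists,
    not_lt] at ht
  obtain ⟨ht0, httail⟩ := ht
  obtain ⟨fails, hfails⟩ : ∃ fails : ℕ → Prop, fails = fun i => i ∈ Icc 1 I ∧ ∃ i' ∈ Icc i I,
      1 / level L i ^ 3 < ‖primePoly (block L l 1 i) (lineCoeff (cut L l i')) t‖ := ⟨_, rfl⟩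
  obtain ⟨j, hjI, hgood, hfail⟩ : ∃ j ≤ I, (∀ i ≤ j, ¬fails i) ∧ (j < I → fails (j + 1)) := by
    by_cases h : ∃ i, fails i
    · have hspec := Nat.find_spec h
      obtain ⟨f, hf⟩ : ∃ f, f = Nat.find h := ⟨_, rfl⟩
      rw [← hf] at hspec
      have hf1 : f ∈ Icc 1 I := by
        rw [hfails] at hspec
        exact hspec.1
      rw [mem_Icc] at hf1
      refine ⟨f - 1, by omega, fun i hi => Nat.find_min h (by omega), fun _ => ?_⟩
      rwa [Nat.sub_add_cancel hf1.1]
    · exact ⟨I, le_rfl, fun i _ hi => h ⟨i, hi⟩, fun h' => absurd h' (lt_irrefl I)⟩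
  obtain ⟨bad, hbad⟩ : ∃ bad : Finset ℕ, bad = (Icc 1 B).filter fun b => (9 / 10 : ℝ) ^ b <
      ‖primePoly (squareBlock b) (squareCoeff (cut L l j)) (2 * t)‖ := ⟨_, rfl⟩
  obtain ⟨m, hmB, hclean, hm⟩ : ∃ m ≤ B, (∀ b ∈ Ioc m B, b ∉ bad) ∧ (m = 0 ∨ m ∈ bad) := by
    by_cases h : bad.Nonempty
    · refine ⟨bad.max' h, ?_, fun b hb hb' => ?_, Or.inr (bad.max'_mem h)⟩
      · have hmem := (Finset.ext_iff.1 hbad _).1 (bad.max'_mem h)
        rw [mem_filter, mem_Icc] at hmem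
        exact hmem.1.2
      · exact absurd (bad.le_max' b hb') (not_le.2 (mem_Ioc.1 hb).1)
    · exact ⟨0, Nat.zero_le B, fun b _ hb => h ⟨b, hb⟩, Or.inl rfl⟩
  refine ⟨j, hjI, m, hmB, fun i hi => ?_, fun b hb => ?_, httail j (mem_range.2 (by omega)),
    ?_, ?_⟩
  · rcases Nat.eq_zero_or_pos i with rfl | hi0
    · exact ht0 j (mem_range.2 (by omega)) m (mem_range.2 (by omega))
    · have hb : block L l (2 ^ m) i = block L l 1 i := by
        simp [block, lowCut, if_neg hi0.ne']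
      rw [hb]
      refine le_of_not_gt fun hlt => hgood i hi ?_
      rw [hfails]
      exact ⟨mem_Icc.2 ⟨hi0, hi.trans hjI⟩, j, mem_Icc.2 ⟨hi, hjI⟩, hlt⟩
  · refine le_of_not_gt fun hlt => hclean b hb ?_
    rw [hbad, mem_filter, mem_Icc]
    exact ⟨⟨by rw [mem_Ioc] at hb; omega, (mem_Ioc.1 hb).2⟩, hlt⟩
  · rw [failTerm]
    split_ifs with h
    swap
    · exact le_rfl
    have hf := hfail h
    rw [hfails] at hf
    obtain ⟨-, i', hi', hlt⟩ := hf
    refine le_trans ?_ (single_le_sum (f := fun i =>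
      (‖primePoly (block L l 1 (j + 1)) (lineCoeff (cut L l i)) t‖ /
        (1 / level L (j + 1) ^ 3)) ^ (2 * failExp L (j + 1)))
      (fun i _ => Even.pow_nonneg (even_two_mul _) _) hi')
    exact one_le_pow₀ ((one_le_div (one_div_pos.2 (pow_pos (level_pos hL _) 3))).2 hlt.le)
  · rw [badTerm]
    split_ifs with h
    · exact le_rfl
    have hm' := hm.resolve_left h
    rw [hbad, mem_filter] at hm'
    exact one_le_pow₀ ((one_le_div (by positivity)).2 hm'.2.le)

/-- **The pointwise bound** for the exponential of the two prime sums. -/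
theorem exp_primeSums_le (hk : 0 ≤ k) (hL : 0 < L) (hl : 0 ≤ l) (h3 : 3 ≤ cut L l 0) {I B : ℕ}
    (hI : level L I ≤ 1 / 2) (hB : ((4 ^ B : ℕ) : ℝ) ≤ cut L l 0) {j m : ℕ} (hj : j ≤ I)
    (hm : m ≤ B) {t : ℝ}
    (hgood : ∀ i ≤ j, ‖primePoly (block L l (2 ^ m) i) (lineCoeff (cut L l j)) t‖ ≤
      1 / level L i ^ 3)
    (hclean : ∀ b ∈ Ioc m B, ‖primePoly (squareBlock b) (squareCoeff (cut L l j)) (2 * t)‖ ≤
      (9 / 10 : ℝ) ^ b)
    (htail : ‖primePoly (squareTail (cut L l j) B) (squareCoeff (cut L l j)) (2 * t)‖ ≤ 1) :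
    Real.exp (2 * k * ((primePoly (primesUpTo ⌊cut L l j⌋₊) (lineCoeff (cut L l j)) t).re +
        (primePoly (primesUpTo ⌊√(cut L l j)⌋₊) (squareCoeff (cut L l j)) (2 * t)).re)) ≤
      Real.exp (2 * k * (4 * √(2 : ℝ) ^ m + 11) + 2) * expTerm k L l j m t := by
  obtain ⟨x, hx⟩ : ∃ x, x = cut L l j := ⟨_, rfl⟩
  rw [← hx] at hgood hclean htail ⊢
  have hx0 : cut L l 0 ≤ x := hx ▸ cut_mono hl (Nat.zero_le j)
  have hQB : ∀ b ≤ B, (((2 ^ b) ^ 2 : ℕ) : ℝ) ≤ x := fun b hb => by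
    refine le_trans (Nat.cast_le.2 ?_) (hB.trans hx0)
    rw [← pow_mul, show (4 : ℕ) = 2 ^ 2 by norm_num, ← pow_mul, mul_comm b]
    exact Nat.pow_le_pow_right two_pos (Nat.mul_le_mul_left 2 hb)
  have hQ : ((2 ^ m : ℕ) : ℝ) ≤ cut L l 0 := by
    refine le_trans (Nat.cast_le.2 ?_) hB
    exact (Nat.pow_le_pow_right two_pos hm).trans (Nat.pow_le_pow_left (by norm_num) B)
  have hsq : ((2 ^ B : ℕ) : ℝ) ≤ √x := Real.le_sqrt_of_sq_le (by exact_mod_cast hQB B le_rfl)
  have e1 : primePoly (primesUpTo ⌊x⌋₊) (lineCoeff x) t =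
      primePoly (primesUpTo (2 ^ m)) (lineCoeff x) t +
        ∑ i ∈ range (j + 1), primePoly (block L l (2 ^ m) i) (lineCoeff x) t := by
    rw [hx]
    exact sum_primesUpTo_cut _ hl hQ j
  have e2 : primePoly (primesUpTo ⌊√x⌋₊) (squareCoeff x) (2 * t) =
      primePoly (primesUpTo (2 ^ m)) (squareCoeff x) (2 * t) +
        ∑ b ∈ Ioc m B, primePoly (squareBlock b) (squareCoeff x) (2 * t) +
        primePoly (squareTail x B) (squareCoeff x) (2 * t) :=
    sum_primesUpTo_squares _ hm hsq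
  have hsqrt : √(((2 ^ m : ℕ) : ℝ)) = √(2 : ℝ) ^ m := by
    rw [Nat.cast_pow, Nat.cast_ofNat, ← Real.sqrt_sq (pow_nonneg (Real.sqrt_nonneg 2) m),
      ← pow_mul, mul_comm, pow_mul, Real.sq_sqrt zero_le_two]
  have hs1 : ‖primePoly (primesUpTo (2 ^ m)) (lineCoeff x) t‖ ≤ 2 * √(2 : ℝ) ^ m := by
    rw [← hsqrt]
    refine norm_primePoly_small_le (fun p hp => lineCoeff_mem (h3.trans hx0)
      (mem_primesUpTo.1 hp).1.one_le ?_) t
    exact (Nat.cast_le.2 (mem_primesUpTo.1 hp).2).trans (hQ.trans hx0)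
  have hs2 : ‖primePoly (primesUpTo (2 ^ m)) (squareCoeff x) (2 * t)‖ ≤ 2 * √(2 : ℝ) ^ m := by
    rw [← hsqrt]
    refine norm_primePoly_small_le (fun p hp => ?_) _
    have hp1 : (1 : ℝ) ≤ p := Nat.one_le_cast.2 (mem_primesUpTo.1 hp).1.one_le
    obtain ⟨h1, h2⟩ := squareCoeff_mem (h3.trans hx0) (mem_primesUpTo.1 hp).1.one_le
      ((Nat.cast_le.2 (Nat.pow_le_pow_left (mem_primesUpTo.1 hp).2 2)).trans (hQB m hm))
    refine ⟨h1, h2.trans (div_le_div_of_nonneg_left zero_le_one (by positivity) ?_)⟩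
    rw [Real.sqrt_le_left (by linarith)]
    nlinarith
  have hgeo : ∑ b ∈ Ioc m B, (9 / 10 : ℝ) ^ b ≤ 10 :=
    ((summable_geometric_of_lt_one (by norm_num) (by norm_num)).sum_le_tsum _ fun b _ =>
      by positivity).trans (by rw [tsum_geometric_of_lt_one (by norm_num) (by norm_num)]; norm_num)
  have hmid : (∑ b ∈ Ioc m B, primePoly (squareBlock b) (squareCoeff x) (2 * t)).re ≤ 10 :=
    (Complex.re_le_norm _).trans ((norm_sum_le_of_le _ hclean).trans hgeo)
  rw [e1, e2, Complex.add_re, Complex.add_re, Complex.add_re, Complex.re_sum (range (j + 1))]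
  have hblock : Real.exp (2 * k *
      ∑ i ∈ range (j + 1), (primePoly (block L l (2 ^ m) i) (lineCoeff x) t).re) ≤
      Real.exp 2 * expTerm k L l j m t := by
    rw [mul_sum, Real.exp_sum, mul_comm (Real.exp 2), expTerm, ← hx]
    refine (prod_le_prod (fun i _ => (Real.exp_pos _).le) fun i hi => ?_).trans
      ((prod_mul_distrib (g := fun i => Real.exp (2 * (1 / 2 : ℝ) ^ degree k L i))).trans_le
        (mul_le_mul_of_nonneg_left ?_ (prod_nonneg fun _ _ => sq_nonneg _)))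
    · rw [mem_range, Nat.lt_succ_iff] at hi
      rw [mul_assoc]
      refine exp_two_mul_le ?_
      rw [abs_mul, abs_of_nonneg hk]
      refine (mul_le_mul_of_nonneg_left ((Complex.abs_re_le_norm _).trans (hgood i hi)) hk).trans ?_
      have hu := pow_pos (level_pos hL i) 3
      rw [le_div_iff₀ (by norm_num), degree]
      refine le_trans ?_ (Nat.le_ceil _)
      rw [mul_one_div, div_mul_eq_mul_div]
      exact div_le_div_of_nonneg_right (by linarith) hu.le
    · rw [← Real.exp_sum, Real.exp_le_exp, ← mul_sum]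
      have h : ∑ i ∈ range (j + 1), (1 / 2 : ℝ) ^ degree k L i ≤
          ∑ i ∈ range (j + 1), level L i := by
        refine sum_le_sum fun i hi => ?_
        rw [mem_range, Nat.lt_succ_iff] at hi
        have hu := level_pos hL i
        have hu1 : level L i ≤ 1 := by linarith [level_mono L (hi.trans hj)]
        have hn : 1 / level L i ≤ degree k L i := by
          refine le_trans ?_ (Nat.le_ceil _)
          rw [div_le_div_iff₀ hu (pow_pos hu 3), one_mul]
          calc level L i ^ 3 ≤ level L i ^ 1 := pow_le_pow_of_le_one hu.le hu1 (by norm_num)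
            _ ≤ 16 * (k + 1) * level L i := by nlinarith
        have hpow : (degree k L i : ℝ) ≤ (2 : ℝ) ^ degree k L i := by
          exact_mod_cast Nat.lt_two_pow_self.le
        rw [div_pow, one_pow]
        refine (div_le_iff₀ (by positivity)).2 ?_
        rw [div_le_iff₀ hu] at hn
        nlinarith [mul_le_mul_of_nonneg_right hpow hu.le]
      linarith [sum_level_le hL j, level_mono L hj]
  refine le_trans ?_ ((mul_le_mul_of_nonneg_left hblock (Real.exp_pos _).le).trans_eq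
    (by rw [← mul_assoc, ← Real.exp_add]))
  rw [← Real.exp_add, Real.exp_le_exp]
  have h := mul_le_mul_of_nonneg_left
    (show (primePoly (primesUpTo (2 ^ m)) (lineCoeff x) t).re +
      ((primePoly (primesUpTo (2 ^ m)) (squareCoeff x) (2 * t)).re +
        (∑ b ∈ Ioc m B, primePoly (squareBlock b) (squareCoeff x) (2 * t)).re +
        (primePoly (squareTail x B) (squareCoeff x) (2 * t)).re) ≤ 4 * √(2 : ℝ) ^ m + 11 by
      linarith [(Complex.re_le_norm _).trans hs1, (Complex.re_le_norm _).trans hs2,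
        (Complex.re_le_norm _).trans htail]) (show 0 ≤ 2 * k by linarith)
  linarith

end FA.SharpMoments
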