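import Fermat.Agent.SharpMoments.Blocks

/-!
# The mean value of one term

For each level `j` and each dyadic block `m` the product of the truncated exponentials, of the
moment of a large block `j + 1` and of the moment of a large block of squares has a mean value equal
to the product of the three diagonals, up to `T ^ (27/80)`.
-/

set_option autoImplicit false

noncomputable section

namespace FA.SharpMoments

open Finset MeasureTheory
open FA.ErdosKac (primesUpTo recipSum mem_primesUpTo)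
open FA.SelbergCLT (primePoly sqMass)
open FA.ZetaUpper (lineCoeff squareCoeff highPrimes lineCoeff_mem squareCoeff_mem lineCoeff_sq_le)
open scoped Real Nat

variable {k L l C : ℝ}

theorem coeff_mem_of_le {x : ℝ} (hx : 3 ≤ x) {p : ℕ} (hp : p.Prime) (hpx : (p : ℝ) ≤ x) :
    0 ≤ lineCoeff x p ∧ lineCoeff x p ≤ 1 :=
  ⟨(lineCoeff_mem hx hp.one_le hpx).1, (lineCoeff_mem hx hp.one_le hpx).2.trans
    (div_le_one_of_le₀ (Real.one_le_sqrt.2 (Nat.one_le_cast.2 hp.one_le)) (Real.sqrt_nonneg _))⟩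

theorem one_le_cut (L : ℝ) (hl : 0 ≤ l) (i : ℕ) : 1 ≤ cut L l i :=
  Real.one_le_exp (mul_nonneg (Even.pow_nonneg (by decide) _) hl)

theorem cut_pow (L l : ℝ) (i q : ℕ) :
    cut L l i ^ q = Real.exp ((q : ℝ) * level L i ^ 4 * l) := by
  rw [cut, ← Real.exp_nat_mul, mul_assoc]

theorem degree_mul_le (hk : 0 ≤ k) (hL : 0 < L) {i : ℕ} (hu : level L i ≤ 1) :
    (degree k L i : ℝ) * level L i ^ 4 ≤ (16 * (k + 1) + 1) * level L i := by
  have h0 := level_pos hL i
  have hc : (degree k L i : ℝ) ≤ 16 * (k + 1) / level L i ^ 3 + 1 :=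
    (Nat.ceil_lt_add_one (by positivity)).le
  refine (mul_le_mul_of_nonneg_right hc (by positivity)).trans ?_
  rw [add_mul, add_mul, one_mul, one_mul]
  refine add_le_add (le_of_eq (by field_simp)) ?_
  simpa using pow_le_pow_of_le_one h0.le hu (show 1 ≤ 4 by norm_num)

/-- The truncated exponentials. -/
theorem exists_expandable_expTerm (hk : 0 ≤ k) (hL : 1 ≤ L) (hl : 1 ≤ l)
    (hlogC : ∀ (n : ℕ) (y : ℝ), 3 ≤ y → (n : ℝ) ≤ y →
      recipSum n ≤ Real.log (Real.log y) + C)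
    (hLl : L = Real.log l) (h3 : 3 ≤ cut L l 0) (h9 : 9 * (k + 1) ^ 2 ≤ cut L l 0) {j : ℕ}
    (hj : level L j ≤ 1 / (80 * (16 * (k + 1) + 1))) {m : ℕ}
    (hQ : ((2 ^ m : ℕ) : ℝ) ≤ cut L l 0) :
    ∃ N W D, 1 ≤ N ∧ 0 ≤ W ∧ 0 ≤ D ∧ D ≤ Real.exp (k ^ 2 * (L + C)) ∧
      N * W ≤ Real.exp (l / 8) ∧
      Expandable (⋃ i ∈ range (j + 1), ↑(block L l (2 ^ m) i)) N W D
        fun t => ((expTerm k L l j m t : ℝ) : ℂ) := by
  have hL0 : 0 < L := by linarith
  have hl0 : 0 ≤ l := by linarith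
  obtain ⟨x, hx⟩ : ∃ x, x = cut L l j := ⟨_, rfl⟩
  have hx3 : 3 ≤ x := hx ▸ h3.trans (cut_mono hl0 (Nat.zero_le j))
  have hj1 : level L j ≤ 1 := hj.trans ((div_le_one (by positivity)).2 (by linarith))
  have hmem : ∀ i ∈ range (j + 1), ∀ p ∈ block L l (2 ^ m) i,
      0 ≤ lineCoeff x p ∧ lineCoeff x p ≤ 1 := fun i hi p hp =>
    coeff_mem_of_le hx3 (mem_block.1 hp).1 ((le_cut_of_mem hp).trans
      (hx ▸ cut_mono hl0 (Nat.lt_succ_iff.1 (mem_range.1 hi))))
  have hex : ∀ i : range (j + 1), _ := fun i => exists_expandable_truncExp_sq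
    (P := block L l (2 ^ m) i) (r := lineCoeff x) (fun p hp => (mem_block.1 hp).1)
    (one_le_cut L hl0 i) (fun p hp => le_cut_of_mem hp) (fun p hp => (hmem i i.2 p hp).1)
    (fun p hp => (hmem i i.2 p hp).2) hk (degree k L i)
  choose D hD0 hDle hE using hex
  have hdisj : ∀ a b : range (j + 1), a ≠ b → Disjoint
      (↑(block L l (2 ^ m) a) : Set ℕ) ↑(block L l (2 ^ m) b) := fun a b hab =>
    Finset.disjoint_coe.2 ((Nat.lt_or_gt_of_ne fun h => hab (Subtype.ext h)).elim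
      (fun h => block_disjoint hl0 h) fun h => (block_disjoint hl0 h).symm)
  have h := (Expandable.prod (range (j + 1)).attach (fun i _ => hE i)
    (fun a _ b _ hab => hdisj a b hab)).congr (G := fun t => ((expTerm k L l j m t : ℝ) : ℂ))
      fun t => by
        rw [expTerm, ← hx, ← prod_attach (range (j + 1))]
        push_cast
        rfl
  refine ⟨_, _, _, ?_, prod_nonneg fun i _ => ?_, prod_nonneg fun i _ => hD0 i, ?_, ?_,
    h.mono (Set.iUnion₂_subset fun i _ => Set.subset_biUnion_of_mem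
      (u := fun i : ℕ => (↑(block L l (2 ^ m) i) : Set ℕ)) (mem_coe.2 i.2)) le_rfl le_rfl⟩
  · calc (1 : ℝ) = ∏ i ∈ (range (j + 1)).attach, 1 := prod_const_one.symm
      _ ≤ _ := prod_le_prod (fun _ _ => zero_le_one) fun i _ => one_le_pow₀ (one_le_cut L hl0 i)
  · have := one_le_cut L hl0 (i : ℕ)
    positivity
  · refine (prod_le_prod (fun i _ => hD0 i) fun i _ => hDle i).trans ?_
    rw [prod_attach (range (j + 1)) (fun i => Real.exp (k ^ 2 *
      sqMass (block L l (2 ^ m) i) (lineCoeff x))), ← Real.exp_sum, ← mul_sum, Real.exp_le_exp]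
    refine mul_le_mul_of_nonneg_left ?_ (sq_nonneg k)
    refine (sum_le_sum fun i hi => sum_le_sum (g := fun p : ℕ => (p : ℝ)⁻¹) fun p hp =>
      lineCoeff_sq_le hx3 (mem_block.1 hp).1 ((le_cut_of_mem hp).trans
        (hx ▸ cut_mono hl0 (Nat.lt_succ_iff.1 (mem_range.1 hi))))).trans ?_
    have hsplit := sum_primesUpTo_cut (fun p : ℕ => (p : ℝ)⁻¹) hl0 hQ j
    have htop := hlogC ⌊cut L l j⌋₊ (cut L l j) (hx ▸ hx3) (Nat.floor_le (Real.exp_pos _).le)
    rw [recipSum, hsplit] at htop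
    have hloglog : Real.log (Real.log (cut L l j)) ≤ L := by
      rw [hLl, cut, Real.log_exp, ← hLl]
      have hp : level L j ^ 4 ≤ 1 :=
        pow_le_one₀ (level_pos hL0 j).le hj1
      calc Real.log (level L j ^ 4 * l) ≤ Real.log l :=
            Real.log_le_log (by have := level_pos hL0 j; positivity)
              (mul_le_of_le_one_left hl0 hp)
        _ = L := hLl.symm
    linarith [sum_nonneg (s := primesUpTo (2 ^ m)) fun p _ =>
      inv_nonneg.2 (Nat.cast_nonneg (α := ℝ) p)]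
  · rw [← prod_mul_distrib, prod_attach (range (j + 1)) (fun i => cut L l i ^ (2 * degree k L i) *
      (9 * ((k + 1) * cut L l i) ^ (2 * degree k L i)))]
    refine (prod_le_prod (fun i _ => ?_) fun i hi => ?_).trans
      (le_of_eq_of_le (Real.exp_sum (range (j + 1))
        (fun i => ((5 * degree k L i : ℕ) : ℝ) * level L i ^ 4 * l)).symm ?_)
    · have := one_le_cut L hl0 i
      positivity
    · rw [← cut_pow]
      obtain ⟨c, hc⟩ : ∃ c, c = cut L l i := ⟨_, rfl⟩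
      obtain ⟨n, hn⟩ : ∃ n, n = degree k L i := ⟨_, rfl⟩
      have hc9 : 9 * (k + 1) ^ 2 ≤ c := hc ▸ h9.trans (cut_mono hl0 (Nat.zero_le i))
      have hn1 : 1 ≤ n := hn ▸ Nat.one_le_ceil_iff.2 (by have := level_pos hL0 i; positivity)
      rw [← hc, ← hn]
      have hc0 : 0 ≤ c := hc ▸ (Real.exp_pos _).le
      have h9n : 9 * (k + 1) ^ (2 * n) ≤ c ^ n := by
        refine le_trans ?_ (pow_le_pow_left₀ (by positivity) hc9 n)
        rw [mul_pow, ← pow_mul]
        exact mul_le_mul_of_nonneg_right (le_self_pow₀ (by norm_num) (by omega)) (by positivity)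
      calc c ^ (2 * n) * (9 * ((k + 1) * c) ^ (2 * n))
          = 9 * (k + 1) ^ (2 * n) * c ^ (4 * n) := by rw [mul_pow]; ring
        _ ≤ c ^ n * c ^ (4 * n) := mul_le_mul_of_nonneg_right h9n (pow_nonneg hc0 _)
        _ = _ := by ring
    · rw [Real.exp_le_exp, ← sum_mul]
      have hb : ∑ i ∈ range (j + 1), ((5 * degree k L i : ℕ) : ℝ) * level L i ^ 4 ≤
          5 * (16 * (k + 1) + 1) * ∑ i ∈ range (j + 1), level L i := by
        rw [mul_sum]
        refine sum_le_sum fun i hi => ?_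
        have := degree_mul_le hk hL0 ((level_mono L (Nat.lt_succ_iff.1 (mem_range.1 hi))).trans hj1)
        push_cast
        linarith
      rw [le_div_iff₀ (by positivity)] at hj
      refine (mul_le_mul_of_nonneg_right (hb.trans (mul_le_mul_of_nonneg_left (sum_level_le hL0 j)
        (by positivity))) hl0).trans ?_
      nlinarith

/-- A large block. -/
theorem exists_expandable_failTerm (hL : 1 ≤ L) (hl : 1 ≤ l)
    (hdiff : ∀ x z R : ℝ, 3 ≤ x → 0 < z → z ≤ x → 1 ≤ R → Real.log x ≤ R * Real.log z →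
      ∑ p ∈ highPrimes x z, (p : ℝ)⁻¹ ≤ Real.log R + C)
    (hC : 0 ≤ C) (h3 : 3 ≤ cut L l 0) {I j : ℕ} (hI : level L I ≤ 1) :
    ∃ N W D, 1 ≤ N ∧ 0 ≤ W ∧ 0 ≤ D ∧
      (D ≤ if j < I then ((I - j : ℕ) : ℝ) *
        ((Real.log 16 + C) * level L (j + 1) ^ 2 / 20) ^ failExp L (j + 1) else 1) ∧
      N * W ≤ ((I : ℝ) + 1) * Real.exp (3 * l / 20) ∧
      Expandable ↑(block L l 1 (j + 1)) N W D fun t => ((failTerm L l I j t : ℝ) : ℂ) := by
  have hL0 : 0 < L := by linarith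
  have hl0 : 0 ≤ l := by linarith
  have hI0 : (0 : ℝ) ≤ I := Nat.cast_nonneg I
  by_cases hjI : j < I
  swap
  · refine ⟨1, 1, 1, le_rfl, zero_le_one, zero_le_one, by rw [if_neg hjI], ?_,
      ((expandable_one _).congr fun t => by simp [failTerm, if_neg hjI])⟩
    rw [one_mul]
    exact one_le_mul_of_one_le_of_one_le (by linarith) (Real.one_le_exp (by positivity))
  obtain ⟨u, hu⟩ : ∃ u, u = level L (j + 1) := ⟨_, rfl⟩
  obtain ⟨M, hM⟩ : ∃ M, M = failExp L (j + 1) := ⟨_, rfl⟩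
  have hu0 : 0 < u := hu ▸ level_pos hL0 _
  have hu1 : u ≤ 1 := hu ▸ (level_mono L hjI).trans hI
  have ha1 : 1 ≤ 1 / u ^ 3 := (one_le_div (by positivity)).2 (pow_le_one₀ hu0.le hu1)
  have hM20 : (M : ℝ) ≤ 1 / (20 * u ^ 4) :=
    hM ▸ hu ▸ Nat.floor_le (by have := level_pos hL0 (j + 1); positivity)
  have hmass : ∀ i ∈ Icc (j + 1) I,
      sqMass (block L l 1 (j + 1)) (lineCoeff (cut L l i)) ≤ Real.log 16 + C := fun i hi => by
    rw [mem_Icc] at hi
    refine (sum_le_sum (g := fun p : ℕ => (p : ℝ)⁻¹) fun p hp => lineCoeff_sq_le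
      (h3.trans (cut_mono hl0 (Nat.zero_le i))) (mem_block.1 hp).1
      ((le_cut_of_mem hp).trans (cut_mono hl0 hi.1))).trans ?_
    refine hdiff _ _ 16 (h3.trans (cut_mono hl0 (Nat.zero_le _))) ?_
      (lowCut_le hl0 (by simpa using one_le_cut L hl0 0) _) (by norm_num) (le_of_eq ?_)
    · simp [lowCut, cut, Real.exp_pos]
    · simp only [lowCut, Nat.succ_ne_zero, if_false, Nat.add_sub_cancel, cut, Real.log_exp,
        level_succ]
      ring
  have hex : ∀ i : Icc (j + 1) I, _ := fun i => exists_expandable_norm_pow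
    (P := block L l 1 (j + 1)) (r := lineCoeff (cut L l i)) (fun p hp => (mem_block.1 hp).1)
    (one_le_cut L hl0 (j + 1)) one_ne_zero (fun p hp => by simpa using le_cut_of_mem hp)
    (fun p hp => (coeff_mem_of_le (h3.trans (cut_mono hl0 (Nat.zero_le _)))
      (mem_block.1 hp).1 ((le_cut_of_mem hp).trans (cut_mono hl0 (mem_Icc.1 i.2).1))).1)
    (fun p hp => (coeff_mem_of_le (h3.trans (cut_mono hl0 (Nat.zero_le _)))
      (mem_block.1 hp).1 ((le_cut_of_mem hp).trans (cut_mono hl0 (mem_Icc.1 i.2).1))).2)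
    (zero_lt_one.trans_le ha1) M
  choose D hD0 hDle hE using hex
  have h := (Expandable.sum (Icc (j + 1) I).attach fun i _ => hE i).congr
    (G := fun t => ((failTerm L l I j t : ℝ) : ℂ)) fun t => by
      rw [failTerm, if_pos hjI, ← hu, ← hM, ← sum_attach (Icc (j + 1) I)]
      push_cast
      simp only [one_mul]
  refine ⟨_, _, _, one_le_pow₀ (one_le_cut L hl0 (j + 1)),
    sum_nonneg fun _ _ => Even.pow_nonneg (even_two_mul _) _, sum_nonneg fun i _ => hD0 i, ?_, ?_,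
    h⟩
  · rw [if_pos hjI, ← hu, ← hM]
    refine (sum_le_card_nsmul _ _ (((Real.log 16 + C) * u ^ 2 / 20) ^ M) fun i _ => ?_).trans_eq
      (by rw [card_attach, Nat.card_Icc, nsmul_eq_mul,
        show I + 1 - (j + 1) = I - j by omega])
    have h16 : 0 ≤ Real.log 16 + C := by
      have := Real.log_nonneg (show (1 : ℝ) ≤ 16 by norm_num)
      linarith
    refine (hDle i).trans ?_
    have hfac : (M ! : ℝ) ≤ (M : ℝ) ^ M := by exact_mod_cast Nat.factorial_le_pow M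
    refine (mul_le_mul_of_nonneg_right hfac (pow_nonneg (div_nonneg
      (sum_nonneg fun p _ => sq_nonneg _) (sq_nonneg _)) M)).trans ?_
    rw [← mul_pow]
    refine pow_le_pow_left₀ (mul_nonneg (Nat.cast_nonneg M) (div_nonneg
      (sum_nonneg fun p _ => sq_nonneg _) (sq_nonneg _))) ?_ M
    refine (mul_le_mul hM20 (div_le_div_of_nonneg_right (hmass i i.2) (sq_nonneg _))
      (div_nonneg (sum_nonneg fun p _ => sq_nonneg _) (sq_nonneg _)) (by positivity)).trans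
        (le_of_eq ?_)
    field_simp
  · rw [sum_const, card_attach, Nat.card_Icc, nsmul_eq_mul, mul_left_comm]
    refine mul_le_mul ?_ ?_ (mul_nonneg (pow_nonneg (zero_le_one.trans (one_le_cut L hl0 _)) _)
      (Even.pow_nonneg (even_two_mul _) _)) (by positivity)
    · exact_mod_cast (show I + 1 - (j + 1) ≤ I + 1 by omega)
    · have hB0 : 0 ≤ cut L l (j + 1) := (Real.exp_pos _).le
      refine (mul_le_mul_of_nonneg_left (pow_le_pow_left₀ (by positivity)
        (div_le_self hB0 ha1) (2 * M)) (pow_nonneg hB0 _)).trans ?_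
      rw [← pow_add, cut_pow, Real.exp_le_exp, ← hu]
      rw [le_div_iff₀ (by positivity)] at hM20
      push_cast
      nlinarith [mul_le_mul_of_nonneg_right hM20 hl0]

/-- The sum over `p` of `p ^ (-2)` in a dyadic block. -/
theorem sqMass_squareBlock_le {x : ℝ} (hx : 3 ≤ x) {m : ℕ} (hm : 1 ≤ m)
    (hmx : (((2 ^ m) ^ 2 : ℕ) : ℝ) ≤ x) :
    sqMass (squareBlock m) (squareCoeff x) ≤ 2 / 2 ^ m := by
  have hle : 2 ^ (m - 1) ≤ 2 ^ m := Nat.pow_le_pow_right two_pos (Nat.sub_le m 1)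
  calc sqMass (squareBlock m) (squareCoeff x)
      ≤ ∑ p ∈ squareBlock m, (((p : ℝ)) ^ 2)⁻¹ := sum_le_sum fun p hp => by
        rw [squareBlock, mem_sdiff] at hp
        obtain ⟨h1, h2⟩ := squareCoeff_mem hx (mem_primesUpTo.1 hp.1).1.one_le
          ((Nat.cast_le.2 (Nat.pow_le_pow_left (mem_primesUpTo.1 hp.1).2 2)).trans hmx)
        refine (pow_le_pow_left₀ h1 h2 2).trans (le_of_eq ?_)
        rw [one_div, inv_pow]
    _ ≤ ∑ n ∈ Ioc (2 ^ (m - 1)) (2 ^ m), (((n : ℕ) : ℝ) ^ 2)⁻¹ := by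
        refine sum_le_sum_of_subset_of_nonneg (fun p hp => ?_) fun n _ _ => by positivity
        rw [squareBlock, mem_sdiff, mem_primesUpTo, mem_primesUpTo] at hp
        exact mem_Ioc.2 ⟨not_le.1 fun h => hp.2 ⟨hp.1.1, h⟩, hp.1.2⟩
    _ ≤ ((2 ^ (m - 1) : ℕ) : ℝ)⁻¹ - ((2 ^ m : ℕ) : ℝ)⁻¹ :=
        sum_Ioc_inv_sq_le_sub (pow_pos two_pos _).ne' hle
    _ ≤ _ := by
        obtain ⟨i, rfl⟩ : ∃ i, m = i + 1 := ⟨m - 1, by omega⟩
        simp only [Nat.add_sub_cancel]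
        push_cast
        rw [pow_succ]
        have : (0 : ℝ) < 2 ^ i := by positivity
        field_simp
        linarith

/-- A large dyadic block of squares. -/
theorem exists_expandable_badTerm (hl : 1 ≤ l) (h3 : 3 ≤ cut L l 0) {B j m : ℕ}
    (hm : m ≤ B) (hB : ((4 ^ B : ℕ) : ℝ) ≤ cut L l 0)
    (hlen : 5 * ((B : ℝ) * (3 / 2 : ℝ) ^ B) ≤ l / 16) :
    ∃ N W D, 1 ≤ N ∧ 0 ≤ W ∧ 0 ≤ D ∧
      (D ≤ if m = 0 then 1 else
        ((squareExp m)! : ℝ) * (2 / (81 / 50 : ℝ) ^ m) ^ squareExp m) ∧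
      N * W ≤ Real.exp (l / 16) ∧
      Expandable ↑(squareBlock m) N W D fun t => ((badTerm L l j m t : ℝ) : ℂ) := by
  by_cases hm0 : m = 0
  · refine ⟨1, 1, 1, le_rfl, zero_le_one, zero_le_one, by rw [if_pos hm0], ?_,
      (expandable_one _).congr fun t => by simp [badTerm, if_pos hm0]⟩
    rw [one_mul]
    exact Real.one_le_exp (by linarith)
  obtain ⟨x, hx⟩ : ∃ x, x = cut L l j := ⟨_, rfl⟩
  have hx0 : cut L l 0 ≤ x := hx ▸ cut_mono (by linarith) (Nat.zero_le j)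
  have h4m : (((2 ^ m) ^ 2 : ℕ) : ℝ) = (4 : ℝ) ^ m := by
    push_cast
    rw [← pow_mul, mul_comm, pow_mul]
    norm_num
  have hmx : (((2 ^ m) ^ 2 : ℕ) : ℝ) ≤ x := by
    rw [h4m]
    refine le_trans (pow_le_pow_right₀ (by norm_num) hm) (le_trans ?_ (hB.trans hx0))
    push_cast
    exact le_rfl
  have hpx : ∀ p ∈ squareBlock m, p.Prime ∧ (p : ℝ) ^ 2 ≤ (4 : ℝ) ^ m ∧
      (((p ^ 2 : ℕ)) : ℝ) ≤ x := fun p hp => by
    rw [squareBlock, mem_sdiff, mem_primesUpTo] at hp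
    have h : ((p ^ 2 : ℕ) : ℝ) ≤ (((2 ^ m) ^ 2 : ℕ) : ℝ) :=
      Nat.cast_le.2 (Nat.pow_le_pow_left hp.1.2 2)
    refine ⟨hp.1.1, ?_, h.trans hmx⟩
    rw [← h4m]
    exact_mod_cast h
  obtain ⟨D, hD0, hDle, hE⟩ := exists_expandable_norm_pow (P := squareBlock m)
    (r := squareCoeff x) (fun p hp => (hpx p hp).1) (B := (4 : ℝ) ^ m) (one_le_pow₀ (by norm_num))
    two_ne_zero (fun p hp => (hpx p hp).2.1)
    (fun p hp => (squareCoeff_mem (h3.trans hx0) (hpx p hp).1.one_le (hpx p hp).2.2).1)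
    (fun p hp => (squareCoeff_mem (h3.trans hx0) (hpx p hp).1.one_le (hpx p hp).2.2).2.trans
      (div_le_one_of_le₀ (Nat.one_le_cast.2 (hpx p hp).1.one_le) (Nat.cast_nonneg _)))
    (show (0 : ℝ) < (9 / 10) ^ m by positivity) (squareExp m)
  refine ⟨_, _, _, one_le_pow₀ (one_le_pow₀ (by norm_num)), Even.pow_nonneg (even_two_mul _) _,
    hD0, ?_, ?_, hE.congr fun t => by simp [badTerm, if_neg hm0, hx]⟩
  · rw [if_neg hm0]
    refine hDle.trans (mul_le_mul_of_nonneg_left (pow_le_pow_left₀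
      (div_nonneg (sum_nonneg fun p _ => sq_nonneg _) (sq_nonneg _)) ?_ _) (Nat.cast_nonneg _))
    refine (div_le_div_of_nonneg_right (sqMass_squareBlock_le (h3.trans hx0) (by omega) hmx)
      (sq_nonneg _)).trans (le_of_eq ?_)
    rw [← pow_mul, mul_comm m, pow_mul, div_div, ← mul_pow]
    norm_num
  · obtain ⟨N, hN⟩ : ∃ N, N = squareExp m := ⟨_, rfl⟩
    rw [← hN]
    have hN' : (N : ℝ) ≤ (3 / 2 : ℝ) ^ B :=
      hN ▸ (Nat.floor_le (by positivity)).trans (pow_le_pow_right₀ (by norm_num) hm)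
    calc ((4 : ℝ) ^ m) ^ N * ((4 : ℝ) ^ m / (9 / 10) ^ m) ^ (2 * N)
        = (6400 / 81 : ℝ) ^ (m * N) := by
          rw [← div_pow, ← pow_mul, ← pow_mul, show m * (2 * N) = 2 * (m * N) by ring, pow_mul _ 2,
            ← mul_pow]
          norm_num
      _ ≤ Real.exp 5 ^ (m * N) := by
          refine pow_le_pow_left₀ (by norm_num) ?_ _
          rw [show (5 : ℝ) = ((5 : ℕ) : ℝ) * 1 by norm_num, Real.exp_nat_mul]
          nlinarith [pow_le_pow_left₀ (by norm_num) Real.exp_one_gt_d9.le 5]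
      _ = Real.exp (5 * ((m : ℝ) * N)) := by
          rw [← Real.exp_nat_mul]
          push_cast
          ring_nf
      _ ≤ _ := Real.exp_le_exp.2 (le_trans (mul_le_mul_of_nonneg_left
          (mul_le_mul (Nat.cast_le.2 hm) hN' (Nat.cast_nonneg N) (Nat.cast_nonneg B))
          (by norm_num)) hlen)

/-- **The mean value of one term.** -/
theorem integral_term_le (hk : 0 ≤ k) (hL : 1 ≤ L) (hl : 1 ≤ l)
    (hlogC : ∀ (n : ℕ) (y : ℝ), 3 ≤ y → (n : ℝ) ≤ y →
      recipSum n ≤ Real.log (Real.log y) + C)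
    (hdiff : ∀ x z R : ℝ, 3 ≤ x → 0 < z → z ≤ x → 1 ≤ R → Real.log x ≤ R * Real.log z →
      ∑ p ∈ highPrimes x z, (p : ℝ)⁻¹ ≤ Real.log R + C)
    (hC : 0 ≤ C) (hLl : L = Real.log l) (h3 : 3 ≤ cut L l 0)
    (h9 : 9 * (k + 1) ^ 2 ≤ cut L l 0) {I B : ℕ}
    (hI : level L I ≤ 1 / (80 * (16 * (k + 1) + 1))) (hB : ((4 ^ B : ℕ) : ℝ) ≤ cut L l 0)
    (hlen : 5 * ((B : ℝ) * (3 / 2 : ℝ) ^ B) ≤ l / 16) {j m : ℕ} (hj : j ≤ I) (hm : m ≤ B)
    {T : ℝ} (hT : 0 ≤ T) :
    ∫ t in T..2 * T, expTerm k L l j m t * failTerm L l I j t * badTerm L l j m t ≤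
      T * Real.exp (k ^ 2 * (L + C)) *
        (if j < I then ((I - j : ℕ) : ℝ) *
          ((Real.log 16 + C) * level L (j + 1) ^ 2 / 20) ^ failExp L (j + 1) else 1) *
        (if m = 0 then 1 else
          ((squareExp m)! : ℝ) * (2 / (81 / 50 : ℝ) ^ m) ^ squareExp m) +
      4 * ((I : ℝ) + 1) * Real.exp (27 * l / 80) := by
  have hL0 : 0 < L := by linarith
  have hl0 : 0 ≤ l := by linarith
  have hQ : ((2 ^ m : ℕ) : ℝ) ≤ cut L l 0 := le_trans (Nat.cast_le.2
    ((Nat.pow_le_pow_right two_pos hm).trans (Nat.pow_le_pow_left (by norm_num) B))) hB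
  obtain ⟨N₁, W₁, D₁, hN₁, hW₁, hD₁, hD₁', hNW₁, hE₁⟩ := exists_expandable_expTerm hk hL hl
    hlogC hLl h3 h9 ((level_mono L hj).trans hI) hQ
  obtain ⟨N₂, W₂, D₂, hN₂, hW₂, hD₂, hD₂', hNW₂, hE₂⟩ := exists_expandable_failTerm (j := j) hL hl
    hdiff hC h3 (hI.trans ((div_le_one (by positivity)).2 (by linarith)))
  obtain ⟨N₃, W₃, D₃, hN₃, hW₃, hD₃, hD₃', hNW₃, hE₃⟩ := exists_expandable_badTerm (j := j) hl
    h3 hm hB hlen
  have hd12 : Disjoint (⋃ i ∈ range (j + 1), (↑(block L l (2 ^ m) i) : Set ℕ))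
      ↑(block L l 1 (j + 1)) := Set.disjoint_iUnion₂_left.2 fun i hi =>
    Finset.disjoint_coe.2 (block_disjoint hl0 (mem_range.1 hi))
  have hsmall : ∀ i, Disjoint (↑(block L l (2 ^ m) i) : Set ℕ) ↑(squareBlock m) := fun i =>
    Finset.disjoint_coe.2 ((block_disjoint_small hl0 hQ).mono_right sdiff_subset)
  have hd3 : Disjoint ((⋃ i ∈ range (j + 1), (↑(block L l (2 ^ m) i) : Set ℕ)) ∪
      ↑(block L l 1 (j + 1))) ↑(squareBlock m) :=
    Set.disjoint_union_left.2 ⟨Set.disjoint_iUnion₂_left.2 fun i _ => hsmall i,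
      block_succ L l (2 ^ m) 1 j ▸ hsmall (j + 1)⟩
  have h := ((hE₁.mul hE₂ hd12).mul hE₃ hd3).congr (G := fun t =>
    ((expTerm k L l j m t * failTerm L l I j t * badTerm L l j m t : ℝ) : ℂ)) fun t => by
      push_cast
      rfl
  refine (h.integral_le (by positivity) T).trans (add_le_add ?_ ?_)
  · rw [mul_assoc (T * _), mul_assoc T, mul_assoc D₁]
    exact mul_le_mul_of_nonneg_left (mul_le_mul hD₁' (mul_le_mul hD₂' hD₃' hD₃ (hD₂.trans hD₂'))
      (mul_nonneg hD₂ hD₃) (Real.exp_pos _).le) hT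
  · have h1 : 1 ≤ N₁ * N₂ * N₃ :=
      one_le_mul_of_one_le_of_one_le (one_le_mul_of_one_le_of_one_le hN₁ hN₂) hN₃
    calc 2 * (N₁ * N₂ * N₃ + 1) * (W₁ * W₂ * W₃) ≤ 4 * (N₁ * N₂ * N₃) * (W₁ * W₂ * W₃) :=
          mul_le_mul_of_nonneg_right (by linarith) (by positivity)
      _ = 4 * ((N₁ * W₁) * (N₂ * W₂) * (N₃ * W₃)) := by ring
      _ ≤ 4 * (Real.exp (l / 8) * (((I : ℝ) + 1) * Real.exp (3 * l / 20)) * Real.exp (l / 16)) :=
          mul_le_mul_of_nonneg_left (mul_le_mul (mul_le_mul hNW₁ hNW₂ (by positivity)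
            (by positivity)) hNW₃ (by positivity) (by positivity)) (by norm_num)
      _ = _ := by
          rw [show 27 * l / 80 = l / 8 + 3 * l / 20 + l / 16 by ring, Real.exp_add, Real.exp_add]
          ring

end FA.SharpMoments
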