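import Fermat.Agent.SharpMoments.Bounds
import Fermat.Agent.ZetaUpper.PrimeTail

/-!
# The rare set

The set where the block of the smallest primes or the tail of the squares of primes is large has
measure at most `T` over any fixed power of `log T`.
-/

set_option autoImplicit false

noncomputable section

namespace FA.SharpMoments

open Finset MeasureTheory
open FA.ErdosKac (primesUpTo recipSum mem_primesUpTo)
open FA.SelbergCLT (primePoly sqMass continuous_primePoly volume_lt_le)
open FA.ZetaUpper (lineCoeff squareCoeff squareCoeff_mem lineCoeff_sq_le)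
open scoped Real Nat

variable {L l C : ℝ}

theorem isOpen_rareSet (L l : ℝ) (I B : ℕ) : IsOpen (rareSet L l I B) :=
  IsOpen.union
    (isOpen_biUnion fun _ _ => isOpen_biUnion fun _ _ =>
      isOpen_lt continuous_const (continuous_primePoly _ _).norm)
    (isOpen_biUnion fun _ _ => isOpen_lt continuous_const
      ((continuous_primePoly _ _).comp (continuous_const.mul continuous_id)).norm)

theorem sqMass_squareTail_le {x : ℝ} (hx : 3 ≤ x) {B : ℕ} (hB : ((2 ^ B : ℕ) : ℝ) ≤ √x) :
    sqMass (squareTail x B) (squareCoeff x) ≤ ((2 ^ B : ℕ) : ℝ)⁻¹ := by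
  calc sqMass (squareTail x B) (squareCoeff x)
      ≤ ∑ p ∈ squareTail x B, (((p : ℝ)) ^ 2)⁻¹ := sum_le_sum fun p hp => by
        rw [squareTail, mem_sdiff] at hp
        obtain ⟨h1, h2⟩ := squareCoeff_mem hx (mem_primesUpTo.1 hp.1).1.one_le
          (FA.ZetaUpper.prime_floor_sq_le (by linarith) hp.1)
        refine (pow_le_pow_left₀ h1 h2 2).trans (le_of_eq ?_)
        rw [one_div, inv_pow]
    _ ≤ ∑ n ∈ Ioc (2 ^ B) ⌊√x⌋₊, (((n : ℕ) : ℝ) ^ 2)⁻¹ := by
        refine sum_le_sum_of_subset_of_nonneg (fun p hp => ?_) fun n _ _ => by positivity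
        rw [squareTail, mem_sdiff, mem_primesUpTo, mem_primesUpTo] at hp
        exact mem_Ioc.2 ⟨not_le.1 fun h => hp.2 ⟨hp.1.1, h⟩, hp.1.2⟩
    _ ≤ ((2 ^ B : ℕ) : ℝ)⁻¹ - (⌊√x⌋₊ : ℝ)⁻¹ :=
        sum_Ioc_inv_sq_le_sub (pow_pos two_pos _).ne' (Nat.le_floor hB)
    _ ≤ _ := sub_le_self _ (by positivity)

/-- **The rare set is small.** -/
theorem measureReal_rareSet_le (hL : 5 ≤ L) (hl : 1 ≤ l) (hCL : C ≤ L)
    (hlogC : ∀ (n : ℕ) (y : ℝ), 3 ≤ y → (n : ℝ) ≤ y →
      recipSum n ≤ Real.log (Real.log y) + C)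
    (hLl : L = Real.log l) (h3 : 3 ≤ cut L l 0) {I B : ℕ}
    (hB : ((4 ^ B : ℕ) : ℝ) ≤ cut L l 0) (hBl : l ≤ 2 ^ B) {N : ℕ}
    (hI : 3 * (N : ℝ) * level L I ^ 4 ≤ 1 / 2) {T : ℝ} (hT : T = Real.exp l) :
    volume.real (Set.Icc T (2 * T) ∩ rareSet L l I B) ≤
      T * (((I : ℝ) + 1) * ((B : ℝ) + 1) *
          (5 * Real.exp 2 * L ^ 2 * Real.exp (-(L ^ 2 / 20))) +
        ((I : ℝ) + 1) * ((N ! : ℝ) / l ^ N + 4 * Real.exp (-(l / 2)))) := by
  have hL0 : 0 < L := by linarith
  have hl0 : 0 ≤ l := by linarith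
  have hT0 : 0 < T := hT ▸ Real.exp_pos l
  have hfin : volume (Set.Icc T (2 * T)) ≠ ⊤ := by simp
  have hmono : ∀ S : Set ℝ, volume (Set.Icc T (2 * T) ∩ S) ≠ ⊤ := fun S =>
    ne_top_of_le_ne_top hfin (measure_mono Set.inter_subset_left)
  rw [rareSet, Set.inter_union_distrib_left, mul_add]
  refine (measureReal_union_le _ _).trans (add_le_add ?_ ?_)
  · simp only [Set.inter_iUnion]
    refine (measureReal_biUnion_finset_le _ _).trans ((sum_le_sum fun i _ =>
      (measureReal_biUnion_finset_le _ _).trans (sum_le_card_nsmul _ _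
        (T * (5 * Real.exp 2 * L ^ 2 * Real.exp (-(L ^ 2 / 20)))) fun m hm => ?_)).trans
          (le_of_eq ?_))
    swap
    · rw [sum_const, card_range, card_range, nsmul_eq_mul, nsmul_eq_mul]
      push_cast
      ring
    obtain ⟨x, hx⟩ : ∃ x, x = cut L l i := ⟨_, rfl⟩
    have hx0 : cut L l 0 ≤ x := hx ▸ cut_mono hl0 (Nat.zero_le i)
    have hu0 : level L 0 ^ 4 = 1 / L ^ 2 := level_zero_pow hL0
    obtain ⟨M, hM⟩ : ∃ M, M = failExp L 0 := ⟨_, rfl⟩
    have hM' : M = ⌊L ^ 2 / 20⌋₊ := by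
      rw [hM, failExp, hu0]
      congr 1
      field_simp
    have hM1 : 1 ≤ M := hM' ▸ Nat.le_floor (by
      rw [Nat.cast_one, le_div_iff₀ (by norm_num)]
      nlinarith)
    have hM2 : (M : ℝ) ≤ L ^ 2 / 20 := hM' ▸ Nat.floor_le (by positivity)
    have hM3 : L ^ 2 / 20 ≤ M + 1 := hM' ▸ (Nat.lt_floor_add_one _).le
    have hmass : sqMass (block L l (2 ^ m) 0) (lineCoeff x) ≤ 2 * L := by
      refine (sum_le_sum (g := fun p : ℕ => (p : ℝ)⁻¹) fun p hp => lineCoeff_sq_le
        (h3.trans hx0) (mem_block.1 hp).1 ((le_cut_of_mem hp).trans hx0)).trans ?_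
      refine (sum_le_sum_of_subset_of_nonneg (show block L l (2 ^ m) 0 ⊆
        primesUpTo ⌊cut L l 0⌋₊ from sdiff_subset) fun p _ _ => by positivity).trans ?_
      refine (hlogC _ _ h3 (Nat.floor_le (Real.exp_pos _).le)).trans ?_
      have : Real.log (Real.log (cut L l 0)) ≤ Real.log l := by
        rw [cut, Real.log_exp, hu0]
        refine Real.log_le_log (by positivity) (mul_le_of_le_one_left hl0 ?_)
        rw [div_le_one (by positivity)]
        nlinarith
      linarith
    have ha : (M : ℝ) * (2 * L) ≤ (1 / level L 0 ^ 3) ^ 2 * Real.exp (-0) := by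
      have e : 1 / level L 0 = √L := by simp [level]
      rw [neg_zero, Real.exp_zero, mul_one,
        show (1 / level L 0 ^ 3) ^ 2 = ((1 / level L 0) ^ 2) ^ 3 by ring, e, Real.sq_sqrt hL0.le]
      nlinarith
    have hv := FA.ZetaUpper.volume_gt_le (g := primePoly (block L l (2 ^ m) 0) (lineCoeff x))
      (continuous_primePoly _ _) hM1 (s := 2 * L) (c := 0) (by linarith) hT0.le
      (FA.ZetaUpper.integral_norm_pow_le (B := ⌊cut L l 0⌋₊) (fun p hp => (mem_block.1 hp).1)
        (fun p hp => (mem_block.1 hp).2.1)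
        (fun p hp => (coeff_mem_of_le (h3.trans hx0) (mem_block.1 hp).1
          ((le_cut_of_mem hp).trans hx0)).1)
        (fun p hp => (coeff_mem_of_le (h3.trans hx0) (mem_block.1 hp).1
          ((le_cut_of_mem hp).trans hx0)).2) hM1 (by linarith) hmass hT0.le ?_)
      (one_div_pos.2 (pow_pos (level_pos hL0 0) 3)) ha
    swap
    · refine (pow_le_pow_left₀ (Nat.cast_nonneg _)
        (Nat.floor_le (show (0 : ℝ) ≤ cut L l 0 by linarith)) _).trans ?_
      rw [cut_pow, hT, Real.exp_le_exp, hu0]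
      refine mul_le_of_le_one_left hl0 ?_
      rw [mul_one_div, div_le_one (by positivity)]
      push_cast
      nlinarith
    rw [← hx]
    refine le_trans (ENNReal.toReal_le_of_le_ofReal (by positivity) hv) ?_
    rw [add_zero, one_mul]
    have h1 : Real.exp (-(M : ℝ)) ≤ Real.exp 1 * Real.exp (-(L ^ 2 / 20)) := by
      rw [← Real.exp_add, Real.exp_le_exp]
      linarith
    calc 5 * Real.exp 1 * T * (M : ℝ) * Real.exp (-(M : ℝ))
        ≤ 5 * Real.exp 1 * T * L ^ 2 * (Real.exp 1 * Real.exp (-(L ^ 2 / 20))) :=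
          mul_le_mul (mul_le_mul_of_nonneg_left (by nlinarith) (by positivity)) h1
            (Real.exp_pos _).le (by positivity)
      _ = _ := by
          rw [show (2 : ℝ) = 1 + 1 by norm_num, Real.exp_add]
          ring
  · simp only [Set.inter_iUnion]
    refine (measureReal_biUnion_finset_le _ _).trans ((sum_le_card_nsmul _ _
      (T * ((N ! : ℝ) / l ^ N + 4 * Real.exp (-(l / 2)))) fun i hi => ?_).trans (le_of_eq ?_))
    swap
    · rw [card_range, nsmul_eq_mul]
      push_cast
      ring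
    obtain ⟨x, hx⟩ : ∃ x, x = cut L l i := ⟨_, rfl⟩
    rw [← hx]
    have hx0 : cut L l 0 ≤ x := hx ▸ cut_mono hl0 (Nat.zero_le i)
    have hsq : ((2 ^ B : ℕ) : ℝ) ≤ √x := by
      refine Real.le_sqrt_of_sq_le ?_
      rw [← Nat.cast_pow, ← pow_mul, mul_comm, pow_mul]
      exact hB.trans hx0
    have hp : ∀ p ∈ squareTail x B, p.Prime ∧ ((p ^ 2 : ℕ) : ℝ) ≤ x := fun p hp => by
      rw [squareTail, mem_sdiff] at hp
      exact ⟨(mem_primesUpTo.1 hp.1).1,
        FA.ZetaUpper.prime_floor_sq_le (by linarith) hp.1⟩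
    obtain ⟨D, -, hDle, hE⟩ := exists_expandable_norm_pow (P := squareTail x B)
      (r := squareCoeff x) (fun p h => (hp p h).1) (B := x) (by linarith) two_ne_zero
      (fun p h => by rw [← Nat.cast_pow]; exact (hp p h).2)
      (fun p h => (squareCoeff_mem (h3.trans hx0) (hp p h).1.one_le (hp p h).2).1)
      (fun p h => (squareCoeff_mem (h3.trans hx0) (hp p h).1.one_le (hp p h).2).2.trans
        (div_le_one_of_le₀ (Nat.one_le_cast.2 (hp p h).1.one_le) (Nat.cast_nonneg _)))
      one_pos N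
    simp only [div_one, one_pow] at hDle hE
    have hx1 : 1 ≤ x := by linarith
    have hI' : ((3 * N : ℕ) : ℝ) * level L i ^ 4 ≤ 1 / 2 := by
      refine le_trans ?_ hI
      push_cast
      exact mul_le_mul_of_nonneg_left (pow_le_pow_left₀ (level_pos hL0 i).le
        (level_mono L (Nat.lt_succ_iff.1 (mem_range.1 hi))) 4) (by positivity)
    have herr : 2 * (x ^ N + 1) * x ^ (2 * N) ≤ T * (4 * Real.exp (-(l / 2))) := by
      calc 2 * (x ^ N + 1) * x ^ (2 * N) ≤ 4 * x ^ N * x ^ (2 * N) :=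
            mul_le_mul_of_nonneg_right (by linarith [one_le_pow₀ (n := N) hx1]) (by positivity)
        _ = 4 * x ^ (3 * N) := by ring
        _ ≤ 4 * Real.exp (l / 2) := by
            refine mul_le_mul_of_nonneg_left ?_ (by norm_num)
            rw [hx, cut_pow, Real.exp_le_exp]
            nlinarith [mul_le_mul_of_nonneg_right hI' hl0]
        _ = _ := by
            rw [hT, mul_left_comm, ← Real.exp_add]
            ring_nf
    have hD : D ≤ (N ! : ℝ) / l ^ N := by
      refine hDle.trans ?_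
      rw [div_eq_mul_inv, ← inv_pow]
      refine mul_le_mul_of_nonneg_left (pow_le_pow_left₀ (sum_nonneg fun p _ => sq_nonneg _) ?_ N)
        (Nat.cast_nonneg _)
      refine (sqMass_squareTail_le (h3.trans hx0) hsq).trans (inv_anti₀ (by linarith) ?_)
      push_cast
      exact hBl
    have hint : ∫ t in T..2 * T, ‖primePoly (squareTail x B) (squareCoeff x) (2 * t)‖ ^ (2 * N) ≤
        T * ((N ! : ℝ) / l ^ N + 4 * Real.exp (-(l / 2))) := by
      refine ((hE.congr fun t => by norm_num).integral_le (by positivity) T).trans ?_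
      rw [mul_add T]
      exact add_le_add (mul_le_mul_of_nonneg_left hD hT0.le) herr
    rcases Nat.eq_zero_or_pos N with rfl | hN
    · have h1 : volume.real (Set.Icc T (2 * T) ∩
          {t | 1 < ‖primePoly (squareTail x B) (squareCoeff x) (2 * t)‖}) ≤ T := by
        refine (measureReal_mono Set.inter_subset_left hfin).trans_eq ?_
        rw [Real.volume_real_Icc, max_eq_left (by linarith)]
        ring
      refine h1.trans (le_mul_of_one_le_right hT0.le ?_)
      simp [(Real.exp_pos _).le]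
    refine (ENNReal.toReal_le_of_le_ofReal (by positivity) ((measure_mono
      (t := {t ∈ Set.Icc T (2 * T) | 1 <
        ‖primePoly (squareTail x B) (squareCoeff x) (2 * t)‖ ^ (2 * N)}) fun t ht =>
      ⟨ht.1, one_lt_pow₀ ht.2 (by omega)⟩).trans ((volume_lt_le
        (g := fun t => ‖primePoly (squareTail x B) (squareCoeff x) (2 * t)‖ ^ (2 * N))
        (((continuous_primePoly _ _).comp (continuous_const.mul continuous_id)).norm.pow _)
        (fun t => pow_nonneg (norm_nonneg _) _) one_pos hT0.le).trans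
          (ENNReal.ofReal_le_ofReal ?_))))
    rw [div_one]
    exact hint

end FA.SharpMoments
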