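import Fermat.Agent.SharpMoments.MeanValue
import Mathlib.Analysis.Complex.Exponential

/-!
# The truncated exponential of a sum over primes

For `|x| ≤ n/16` one has `e^x ≤ exp (2^(-n)) ∑_{a ≤ n} x^a / a!`, and the diagonal of the square
of this polynomial at `k re P` is at most `exp (k² ∑ r²)`.
-/

set_option autoImplicit false

noncomputable section

namespace FA.SharpMoments

open Finset
open FA.SelbergCLT (primePoly sqMass diagPairs diagPairs_of_ne diagPairs_le tupleWeight_nonneg)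
open scoped Nat ComplexConjugate

/-- `∑_{a ≤ n} x ^ a / a!`. -/
def truncExp (n : ℕ) (x : ℝ) : ℝ := ∑ a ∈ range (n + 1), x ^ a / (a ! : ℝ)

theorem abs_exp_sub_truncExp_le {n : ℕ} {x : ℝ} (hx : |x| ≤ n / 16) :
    |Real.exp x - truncExp n x| ≤ 2 * (|x| ^ (n + 1) / (n + 1)!) := by
  have h := Complex.exp_bound' (x := (x : ℂ)) (n := n + 1) (by
    rw [Complex.norm_real, Real.norm_eq_abs, div_le_iff₀ (by positivity)]
    push_cast
    linarith [Nat.cast_nonneg (α := ℝ) n])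
  have e : Complex.exp (x : ℂ) - ∑ m ∈ range (n + 1), (x : ℂ) ^ m / (m ! : ℂ) =
      ((Real.exp x - truncExp n x : ℝ) : ℂ) := by
    rw [truncExp]
    push_cast
    rfl
  rw [e, Complex.norm_real, Complex.norm_real, Real.norm_eq_abs, Real.norm_eq_abs] at h
  linarith

theorem exp_le_truncExp {n : ℕ} {x : ℝ} (hx : |x| ≤ n / 16) :
    Real.exp x ≤ truncExp n x * Real.exp ((1 / 2 : ℝ) ^ n) := by
  obtain ⟨u, hu⟩ : ∃ u : ℝ, u = (1 / 2) ^ n / 2 := ⟨_, rfl⟩
  have hu0 : 0 ≤ u := hu ▸ by positivity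
  have hu1 : u ≤ 1 / 2 := by
    rw [hu]
    linarith [pow_le_one₀ (n := n) (show (0 : ℝ) ≤ 1 / 2 by norm_num) (by norm_num)]
  have h1 : |x| ^ (n + 1) / (n + 1)! ≤ (1 / 4) ^ (n + 1) := by
    have h := Real.pow_div_factorial_le_exp ((n + 1 : ℕ) : ℝ) (Nat.cast_nonneg _) (n + 1)
    rw [div_le_iff₀ (by positivity), ← Real.exp_one_pow] at h
    have h3 : |x| ^ (n + 1) ≤ (((n + 1 : ℕ) : ℝ) * (1 / 16)) ^ (n + 1) :=
      pow_le_pow_left₀ (abs_nonneg x) (by push_cast; linarith) _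
    rw [div_le_iff₀ (by positivity)]
    refine h3.trans ?_
    rw [mul_pow]
    refine (mul_le_mul_of_nonneg_right h (by positivity)).trans ?_
    rw [mul_right_comm, ← mul_pow]
    exact mul_le_mul_of_nonneg_right (pow_le_pow_left₀ (by positivity)
      (by linarith [Real.exp_one_lt_three]) _) (by positivity)
  have h2 : (1 / 2 : ℝ) ^ n ≤ Real.exp x := by
    have h3 : (1 / 2 : ℝ) ^ n ≤ Real.exp (-(1 : ℝ) / 16) ^ n :=
      pow_le_pow_left₀ (by norm_num) (by linarith [Real.add_one_le_exp (-(1 : ℝ) / 16)]) n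
    refine h3.trans ?_
    rw [← Real.exp_nat_mul, Real.exp_le_exp]
    linarith [neg_abs_le x]
  have h4 : |Real.exp x - truncExp n x| ≤ u * Real.exp x := by
    refine (abs_exp_sub_truncExp_le hx).trans ?_
    calc 2 * (|x| ^ (n + 1) / (n + 1)!) ≤ 2 * (1 / 4) ^ (n + 1) := by linarith
      _ = u * (1 / 2) ^ n := by
          rw [hu, show (1 / 4 : ℝ) = 1 / 2 * (1 / 2) by norm_num, mul_pow, pow_succ]
          ring
      _ ≤ _ := mul_le_mul_of_nonneg_left h2 hu0
  rw [abs_le] at h4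
  have h5 : 1 ≤ (1 - u) * Real.exp ((1 / 2 : ℝ) ^ n) := by
    rw [show (1 / 2 : ℝ) ^ n = 2 * u by rw [hu]; ring]
    nlinarith [Real.add_one_le_exp (2 * u)]
  nlinarith [mul_le_mul_of_nonneg_left h5 (Real.exp_pos x).le,
    mul_le_mul_of_nonneg_right (show (1 - u) * Real.exp x ≤ truncExp n x by linarith)
      (Real.exp_pos ((1 / 2 : ℝ) ^ n)).le]

theorem exp_two_mul_le {n : ℕ} {x : ℝ} (hx : |x| ≤ n / 16) :
    Real.exp (2 * x) ≤ truncExp n x ^ 2 * Real.exp (2 * (1 / 2 : ℝ) ^ n) := by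
  rw [two_mul, two_mul, Real.exp_add, Real.exp_add, pow_two, mul_mul_mul_comm]
  exact mul_le_mul (exp_le_truncExp hx) (exp_le_truncExp hx) (Real.exp_pos x).le
    ((Real.exp_pos x).le.trans (exp_le_truncExp hx))

variable {P : Finset ℕ} {r : ℕ → ℝ}

theorem diagPairs_nonneg (hr : ∀ p ∈ P, 0 ≤ r p) (a b : ℕ) : 0 ≤ diagPairs P r a b :=
  sum_nonneg fun f hf => sum_nonneg fun g hg => by
    split_ifs
    exacts [mul_nonneg (tupleWeight_nonneg hr hf) (tupleWeight_nonneg hr hg), le_rfl]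

theorem sum_le_of_prime (hP : ∀ p ∈ P, p.Prime) {B : ℝ} (hB1 : 1 ≤ B)
    (hB : ∀ p ∈ P, (p : ℝ) ≤ B) (hr1 : ∀ p ∈ P, r p ≤ 1) : ∑ p ∈ P, r p ≤ B := by
  refine (sum_le_card_nsmul _ _ (1 : ℝ) hr1).trans ?_
  rw [nsmul_one]
  refine le_trans (Nat.cast_le.2 ?_) (Nat.floor_le (by linarith : (0 : ℝ) ≤ B))
  simpa using card_le_card (show P ⊆ Finset.Icc 1 ⌊B⌋₊ from fun p hp =>
    mem_Icc.2 ⟨(hP p hp).one_le, Nat.le_floor (hB p hp)⟩)

/-- The mean of `(re P) ^ q` in the model. -/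
def momentRe (P : Finset ℕ) (r : ℕ → ℝ) (q : ℕ) : ℝ :=
  ∑ j ∈ range (q + 1), (q.choose j : ℝ) / 2 ^ q * diagPairs P r j (q - j)

theorem momentRe_nonneg (hr : ∀ p ∈ P, 0 ≤ r p) (q : ℕ) : 0 ≤ momentRe P r q :=
  sum_nonneg fun j _ => mul_nonneg (by positivity) (diagPairs_nonneg hr _ _)

theorem momentRe_odd (hP : ∀ p ∈ P, p.Prime) (j : ℕ) : momentRe P r (2 * j + 1) = 0 :=
  sum_eq_zero fun i _ => by rw [diagPairs_of_ne hP (by omega), mul_zero]

theorem momentRe_even_le (hP : ∀ p ∈ P, p.Prime) (j : ℕ) :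
    momentRe P r (2 * j) ≤ ((2 * j)! : ℝ) / (j ! * 4 ^ j) * sqMass P r ^ j := by
  rw [momentRe, sum_eq_single j (fun i _ hi => by rw [diagPairs_of_ne hP (by omega), mul_zero])
    (fun h => absurd (mem_range.2 (by omega)) h), show 2 * j - j = j by omega]
  refine (mul_le_mul_of_nonneg_left (diagPairs_le hP j) (by positivity)).trans (le_of_eq ?_)
  rw [Nat.cast_choose ℝ (show j ≤ 2 * j by omega), show 2 * j - j = j by omega, pow_mul,
    show (2 : ℝ) ^ 2 = 4 by norm_num]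
  field_simp

theorem expandable_re_pow (hP : ∀ p ∈ P, p.Prime) {B : ℝ} (hB1 : 1 ≤ B)
    (hB : ∀ p ∈ P, (p : ℝ) ≤ B) (hr : ∀ p ∈ P, 0 ≤ r p) {q Q : ℕ} (hq : q ≤ Q) :
    Expandable ↑P (B ^ Q) ((∑ p ∈ P, r p) ^ q) (momentRe P r q)
      fun t => (((primePoly P r t).re ^ q : ℝ) : ℂ) := by
  have h := Expandable.sum (range (q + 1)) fun j hj =>
    (expandable_pow_mul_conj hP hB1 one_ne_zero (fun p hp => by simpa using hB p hp) hr
      (a := j) (b := q - j) (q := Q) (by rw [mem_range] at hj; omega) (by omega)).smul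
        (show (0 : ℝ) ≤ (q.choose j : ℝ) / 2 ^ q by positivity)
  refine (h.mono subset_rfl le_rfl (le_of_eq ?_)).congr fun t => ?_
  · rw [sum_congr rfl fun j hj => by
      rw [Nat.add_sub_cancel' (by rw [mem_range] at hj; omega)],
      ← sum_mul, ← sum_div, ← Nat.cast_sum, Nat.sum_range_choose]
    simp
  · simp only [Nat.cast_one, one_mul]
    rw [Complex.ofReal_pow, Complex.re_eq_add_conj, div_pow, add_pow, sum_div]
    refine sum_congr rfl fun j _ => ?_
    push_cast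
    ring

theorem truncExp_le_mul_pow {n : ℕ} {x y : ℝ} (hx : 0 ≤ x) (hxy : x ≤ y) (hy : 1 ≤ y) :
    truncExp n x ≤ 3 * y ^ n := by
  calc truncExp n x ≤ ∑ a ∈ range (n + 1), y ^ n * ((1 : ℝ) ^ a / a !) := by
        refine sum_le_sum fun a ha => ?_
        rw [one_pow, mul_one_div]
        exact div_le_div_of_nonneg_right ((pow_le_pow_left₀ hx hxy a).trans
          (pow_le_pow_right₀ hy (by rw [mem_range] at ha; omega))) (by positivity)
    _ ≤ y ^ n * Real.exp 1 := by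
        rw [← mul_sum]
        exact mul_le_mul_of_nonneg_left (Real.sum_le_exp_of_nonneg zero_le_one _) (by positivity)
    _ ≤ _ := by nlinarith [Real.exp_one_lt_three, pow_nonneg (zero_le_one.trans hy) n]

/-- **The square of the truncated exponential.** -/
theorem exists_expandable_truncExp_sq (hP : ∀ p ∈ P, p.Prime) {B : ℝ} (hB1 : 1 ≤ B)
    (hB : ∀ p ∈ P, (p : ℝ) ≤ B) (hr : ∀ p ∈ P, 0 ≤ r p) (hr1 : ∀ p ∈ P, r p ≤ 1) {k : ℝ}
    (hk : 0 ≤ k) (n : ℕ) :
    ∃ D, 0 ≤ D ∧ D ≤ Real.exp (k ^ 2 * sqMass P r) ∧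
      Expandable ↑P (B ^ (2 * n)) (9 * ((k + 1) * B) ^ (2 * n)) D
        fun t => ((truncExp n (k * (primePoly P r t).re) ^ 2 : ℝ) : ℂ) := by
  obtain ⟨w, hw⟩ : ∃ w : ℕ × ℕ → ℝ, w = fun x => k ^ (x.1 + x.2) / (x.1 ! * x.2 ! : ℝ) :=
    ⟨_, rfl⟩
  have hw0 : ∀ x, 0 ≤ w x := fun x => by rw [hw]; positivity
  have hD0 := fun q => momentRe_nonneg (P := P) hr q
  refine ⟨∑ x ∈ range (n + 1) ×ˢ range (n + 1), w x * momentRe P r (x.1 + x.2),
    sum_nonneg fun x _ => mul_nonneg (hw0 x) (hD0 _), ?_, ?_⟩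
  · have hmap : ((range (n + 1) ×ˢ range (n + 1) : Finset (ℕ × ℕ)) : Set (ℕ × ℕ)).MapsTo
        (fun x => x.1 + x.2) (range (2 * n + 1) : Finset ℕ) := fun x hx => by
      simp only [mem_coe, mem_product, mem_range] at hx ⊢
      omega
    rw [← sum_fiberwise_of_maps_to hmap]
    have hstep : ∀ q ∈ range (2 * n + 1), ∑ x ∈ range (n + 1) ×ˢ range (n + 1) with x.1 + x.2 = q,
        w x * momentRe P r (x.1 + x.2) ≤ (2 * k) ^ q / q ! * momentRe P r q := fun q _ => by
      rw [sum_congr rfl fun x hx => by rw [(mem_filter.1 hx).2], ← sum_mul]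
      refine mul_le_mul_of_nonneg_right ?_ (hD0 q)
      calc _ ≤ ∑ x ∈ antidiagonal q, w x :=
            sum_le_sum_of_subset_of_nonneg (fun x hx => mem_antidiagonal.2 (mem_filter.1 hx).2)
              fun x _ _ => hw0 x
        _ = ∑ j ∈ range (q + 1), k ^ q / q ! * (q.choose j : ℝ) := by
            rw [Nat.sum_antidiagonal_eq_sum_range_succ_mk]
            refine sum_congr rfl fun j hj => ?_
            have hjq : j ≤ q := by rw [mem_range] at hj; omega
            rw [hw, Nat.cast_choose ℝ hjq]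
            simp only [Nat.add_sub_cancel' hjq]
            field_simp
        _ = _ := by
            rw [← mul_sum, ← Nat.cast_sum, Nat.sum_range_choose, mul_pow]
            push_cast
            ring
    refine (sum_le_sum hstep).trans ?_
    refine le_trans ?_ (Real.sum_le_exp_of_nonneg (mul_nonneg (sq_nonneg k)
      (sum_nonneg fun p _ => sq_nonneg (r p))) (2 * n + 1))
    calc ∑ q ∈ range (2 * n + 1), (2 * k) ^ q / q ! * momentRe P r q
        = ∑ q ∈ (range (2 * n + 1)).filter Even, (2 * k) ^ q / q ! * momentRe P r q := by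
          refine (sum_filter_of_ne fun q _ hq => ?_).symm
          by_contra he
          obtain ⟨j, rfl⟩ := Nat.not_even_iff_odd.1 he
          exact hq (by rw [momentRe_odd hP, mul_zero])
      _ ≤ ∑ q ∈ (range (2 * n + 1)).image (2 * ·), (2 * k) ^ q / q ! * momentRe P r q :=
          sum_le_sum_of_subset_of_nonneg (fun q hq => by
            rw [mem_filter, mem_range] at hq
            obtain ⟨j, rfl⟩ := hq.2
            exact mem_image.2 ⟨j, mem_range.2 (by omega), by ring⟩)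
            fun q _ _ => mul_nonneg (by positivity) (hD0 q)
      _ = ∑ j ∈ range (2 * n + 1), (2 * k) ^ (2 * j) / (2 * j)! * momentRe P r (2 * j) :=
          sum_image fun a _ b _ h => by simpa using h
      _ ≤ _ := by
          refine sum_le_sum fun j _ => (mul_le_mul_of_nonneg_left (momentRe_even_le hP j)
            (by positivity)).trans (le_of_eq ?_)
          rw [sqMass, mul_pow (k ^ 2), ← pow_mul, mul_pow, pow_mul (2 : ℝ),
            show (2 : ℝ) ^ 2 = 4 by norm_num]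
          field_simp
  · have hR0 : 0 ≤ ∑ p ∈ P, r p := sum_nonneg hr
    have h := Expandable.sum (range (n + 1) ×ˢ range (n + 1)) fun x hx =>
      (expandable_re_pow hP hB1 hB hr (q := x.1 + x.2) (Q := 2 * n)
        (by rw [mem_product, mem_range, mem_range] at hx; omega)).smul (hw0 x)
    refine (h.mono subset_rfl le_rfl ?_).congr fun t => ?_
    · have hb : truncExp n (k * ∑ p ∈ P, r p) ≤ 3 * ((k + 1) * B) ^ n :=
        truncExp_le_mul_pow (mul_nonneg hk hR0)
          (mul_le_mul (by linarith) (sum_le_of_prime hP hB1 hB hr1) hR0 (by linarith))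
          (one_le_mul_of_one_le_of_one_le (by linarith) hB1)
      have hb0 : 0 ≤ truncExp n (k * ∑ p ∈ P, r p) :=
        sum_nonneg fun a _ => div_nonneg (pow_nonneg (mul_nonneg hk hR0) a) (by positivity)
      refine le_trans (le_of_eq ?_) ((mul_le_mul hb hb hb0 (hb0.trans hb)).trans_eq (by ring))
      rw [truncExp, sum_mul_sum, sum_product, hw]
      refine sum_congr rfl fun a _ => sum_congr rfl fun b _ => ?_
      simp only
      ring
    · rw [truncExp, sq, sum_mul_sum, sum_product, hw]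
      push_cast
      refine sum_congr rfl fun a _ => sum_congr rfl fun b _ => ?_
      ring

/-- `(‖P‖ / a) ^ (2 M)` at the time `e t`. -/
theorem exists_expandable_norm_pow (hP : ∀ p ∈ P, p.Prime) {B : ℝ} (hB1 : 1 ≤ B) {e : ℕ}
    (he : e ≠ 0) (hB : ∀ p ∈ P, (p : ℝ) ^ e ≤ B) (hr : ∀ p ∈ P, 0 ≤ r p)
    (hr1 : ∀ p ∈ P, r p ≤ 1) {a : ℝ} (ha : 0 < a) (M : ℕ) :
    ∃ D, 0 ≤ D ∧ D ≤ M ! * (sqMass P r / a ^ 2) ^ M ∧
      Expandable ↑P (B ^ M) ((B / a) ^ (2 * M)) D
        fun t => (((‖primePoly P r ((e : ℝ) * t)‖ / a) ^ (2 * M) : ℝ) : ℂ) := by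
  have hB' : ∀ p ∈ P, (p : ℝ) ≤ B := fun p hp =>
    (le_self_pow₀ (Nat.one_le_cast.2 (hP p hp).one_le) he).trans (hB p hp)
  refine ⟨(1 / a) ^ (2 * M) * diagPairs P r M M,
    mul_nonneg (by positivity) (diagPairs_nonneg hr M M), ?_, ?_⟩
  · refine (mul_le_mul_of_nonneg_left (diagPairs_le hP M) (by positivity)).trans (le_of_eq ?_)
    rw [div_pow, div_pow, one_pow, pow_mul]
    ring
  · refine (((expandable_pow_mul_conj hP hB1 he hB hr (le_refl M) (le_refl M)).smul
      (show 0 ≤ (1 / a) ^ (2 * M) by positivity)).mono subset_rfl le_rfl ?_).congr fun t => ?_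
    · refine (mul_le_mul_of_nonneg_left (pow_le_pow_left₀ (sum_nonneg hr)
        (sum_le_of_prime hP hB1 hB' hr1) _) (by positivity)).trans (le_of_eq ?_)
      rw [← two_mul, ← mul_pow, one_div_mul_eq_div]
    · rw [← mul_pow (primePoly P r _), Complex.mul_conj', ← pow_mul]
      push_cast
      rw [div_pow, div_pow, one_pow]
      ring

end FA.SharpMoments
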