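import Fermat.Agent.SharpMoments.Exceptional
import Fermat.Agent.ZetaUpper.Moments
import Mathlib.Analysis.SpecificLimits.Normed

/-!
# Harper's theorem

If the zeros of `ξ` have real part `1/2` then `∫_T^{2T} |ζ (1/2 + it)| ^ (2 k) ≪ T (log T) ^ (k²)`
for every real `k ≥ 0`.
-/

set_option autoImplicit false

noncomputable section

namespace FA.SharpMoments

open Finset MeasureTheory Filter
open FA.ErdosKac (primesUpTo recipSum mem_primesUpTo)
open FA.SelbergCLT (primePoly continuous_primePoly)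
open FA.SecondMoment (continuous_zeta_line)
open FA.ZetaUpper (Critical lineCoeff squareCoeff)
open scoped Real Nat Topology

variable {k L l : ℝ}

theorem continuous_expTerm (k L l : ℝ) (j m : ℕ) : Continuous (expTerm k L l j m) := by
  refine continuous_finsetProd _ fun i _ => Continuous.pow ?_ 2
  exact continuous_finsetSum _ fun a _ => ((continuous_const.mul
    (Complex.continuous_re.comp (continuous_primePoly _ _))).pow a).div_const _

theorem continuous_failTerm (L l : ℝ) (I j : ℕ) : Continuous (failTerm L l I j) := by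
  show Continuous fun t => failTerm L l I j t
  by_cases h : j < I
  · simp only [failTerm, if_pos h]
    exact continuous_finsetSum _ fun i _ =>
      ((continuous_primePoly _ _).norm.div_const _).pow _
  · simp only [failTerm, if_neg h]
    exact continuous_const

theorem continuous_badTerm (L l : ℝ) (j m : ℕ) : Continuous (badTerm L l j m) := by
  show Continuous fun t => badTerm L l j m t
  by_cases h : m = 0
  · simp only [badTerm, if_pos h]
    exact continuous_const
  · simp only [badTerm, if_neg h]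
    exact (((continuous_primePoly _ _).comp (continuous_const.mul continuous_id)).norm.div_const
      _).pow _

/-- The series over the dyadic blocks of squares. -/
def blockSeries (k : ℝ) (m : ℕ) : ℝ :=
  Real.exp (8 * k * √(2 : ℝ) ^ m) * (((squareExp m)! : ℝ) * (2 / (81 / 50) ^ m) ^ squareExp m)

theorem blockSeries_nonneg (k : ℝ) (m : ℕ) : 0 ≤ blockSeries k m :=
  mul_nonneg (Real.exp_pos _).le (by positivity)

theorem summable_blockSeries (k : ℝ) : Summable (blockSeries k) := by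
  have hs : √(2 : ℝ) < 3 / 2 := (Real.sqrt_lt' (by norm_num)).2 (by norm_num)
  have h1 : Tendsto (fun m : ℕ => (√(2 : ℝ) / (3 / 2)) ^ m) atTop (𝓝 0) :=
    tendsto_pow_atTop_nhds_zero_of_lt_one (by positivity) ((div_lt_one (by norm_num)).2 hs)
  have h2 : Tendsto (fun m : ℕ => (75 / 81 : ℝ) ^ m) atTop (𝓝 0) :=
    tendsto_pow_atTop_nhds_zero_of_lt_one (by norm_num) (by norm_num)
  have h3 := tendsto_pow_const_div_const_pow_of_one_lt 1 (show (1 : ℝ) < 3 / 2 by norm_num)
  refine summable_of_isBigO_nat Real.summable_exp_neg_nat (Asymptotics.isBigO_iff.2 ⟨1, ?_⟩)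
  filter_upwards [(h1.const_mul (8 * k)).eventually_le_const
      (show 8 * k * 0 < 1 / 4 by norm_num),
    (h2.const_mul 2).eventually_le_const (show (2 : ℝ) * 0 < Real.exp (-1) by simp [Real.exp_pos]),
    h3.eventually_le_const (show (0 : ℝ) < 1 / 4 by norm_num)] with m hm1 hm2 hm3
  obtain ⟨p, hp⟩ : ∃ p, p = (3 / 2 : ℝ) ^ m := ⟨_, rfl⟩
  obtain ⟨N, hN⟩ : ∃ N, N = squareExp m := ⟨_, rfl⟩
  have hp1 : 1 ≤ p := hp ▸ one_le_pow₀ (by norm_num)
  have hNp : (N : ℝ) ≤ p := by
    rw [hN, hp, squareExp]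
    exact Nat.floor_le (by positivity)
  have hN2 : p / 2 ≤ N := by
    have h : p < (N : ℝ) + 1 := by
      rw [hN, hp, squareExp]
      exact Nat.lt_floor_add_one _
    have hN1 : (1 : ℝ) ≤ N := by
      rw [hN, squareExp, Nat.one_le_cast]
      exact Nat.le_floor (by rw [Nat.cast_one]; exact one_le_pow₀ (by norm_num))
    linarith
  have e1 : 8 * k * √(2 : ℝ) ^ m ≤ p / 4 := by
    rw [div_pow, ← mul_div_assoc, ← hp, div_le_iff₀ (by linarith)] at hm1
    linarith
  have e3 : (m : ℝ) ≤ p / 4 := by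
    rw [pow_one, ← hp, div_le_iff₀ (by linarith)] at hm3
    linarith
  have e2 : (N ! : ℝ) * (2 / (81 / 50) ^ m) ^ N ≤ Real.exp (-1) ^ N := by
    have hfac : (N ! : ℝ) ≤ (N : ℝ) ^ N := by exact_mod_cast Nat.factorial_le_pow N
    refine (mul_le_mul_of_nonneg_right hfac (by positivity)).trans ?_
    rw [← mul_pow]
    refine pow_le_pow_left₀ (by positivity) (le_trans ?_ hm2) N
    refine (mul_le_mul_of_nonneg_right hNp (by positivity)).trans (le_of_eq ?_)
    rw [hp, mul_div_assoc', mul_comm _ (2 : ℝ), mul_div_assoc, ← div_pow]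
    norm_num
  rw [one_mul, Real.norm_of_nonneg (blockSeries_nonneg k m), Real.norm_of_nonneg
    (Real.exp_pos _).le, blockSeries, ← hN]
  refine (mul_le_mul (Real.exp_le_exp.2 e1) e2 (by positivity) (Real.exp_pos _).le).trans ?_
  rw [← Real.exp_nat_mul, ← Real.exp_add, Real.exp_le_exp]
  linarith

/-- A failing level costs at most its `u`. -/
theorem fail_level_le (hk : 0 ≤ k) {S u : ℝ} (hS : 0 ≤ S) (hu : 0 < u) (hu4 : 40 * u ^ 4 ≤ 1)
    (hΛ : S * u ^ 2 / 20 ≤ Real.exp (-(40 * (64 * k + 1)))) {n : ℕ} (hn : (n : ℝ) * u ≤ 1) :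
    Real.exp (64 * k / u ^ 4) * ((n : ℝ) * (S * u ^ 2 / 20) ^ ⌊1 / (20 * u ^ 4)⌋₊) ≤ u := by
  have hu1 : u ≤ 1 := by
    rcases le_or_gt u 1 with h | h
    · exact h
    · nlinarith [one_lt_pow₀ h (show 4 ≠ 0 by norm_num)]
  obtain ⟨M, hM⟩ : ∃ M, M = ⌊1 / (20 * u ^ 4)⌋₊ := ⟨_, rfl⟩
  rw [← hM]
  have hM' : 1 / (40 * u ^ 4) ≤ M := by
    have h := hM ▸ Nat.lt_floor_add_one (1 / (20 * u ^ 4))
    have e : 1 / (20 * u ^ 4) = 2 * (1 / (40 * u ^ 4)) := by ring
    linarith [(one_le_div (by positivity)).2 hu4]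
  have h1 : (S * u ^ 2 / 20) ^ M ≤ Real.exp (-((64 * k + 1) / u ^ 4)) := by
    refine (pow_le_pow_left₀ (by positivity) hΛ M).trans ?_
    rw [← Real.exp_nat_mul, Real.exp_le_exp, mul_neg, neg_le_neg_iff]
    refine (le_of_eq ?_).trans (mul_le_mul_of_nonneg_right hM' (by positivity))
    field_simp
  refine (mul_le_mul_of_nonneg_left (mul_le_mul_of_nonneg_left h1 (Nat.cast_nonneg n))
    (Real.exp_pos _).le).trans ?_
  rw [mul_left_comm, ← Real.exp_add, show 64 * k / u ^ 4 + -((64 * k + 1) / u ^ 4) =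
    -(1 / u ^ 4) by ring, Real.exp_neg, ← div_eq_mul_inv, div_le_iff₀ (Real.exp_pos _)]
  have hexp : 1 / u ^ 4 ≤ Real.exp (1 / u ^ 4) := by linarith [Real.add_one_le_exp (1 / u ^ 4)]
  have hn' : (n : ℝ) ≤ u * (1 / u ^ 4) := by
    refine ((le_div_iff₀ hu).2 hn).trans ?_
    rw [mul_one_div, div_le_div_iff₀ hu (by positivity), one_mul, ← sq]
    exact pow_le_pow_of_le_one hu.le hu1 (by norm_num)
  exact hn'.trans (mul_le_mul_of_nonneg_left hexp hu.le)

/-- What is needed of `l = log T`. -/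
theorem eventually_conditions (k C₀ R : ℝ) (A N : ℕ) (hN : A + 3 ≤ N) :
    ∀ᶠ l : ℝ in atTop, (4 ≤ l ∧ R ≤ Real.log l) ∧
      (max (4 * l ^ 2) (max 3 (9 * (k + 1) ^ 2)) ≤ Real.exp (l / Real.log l ^ 2)) ∧
      (16 * k * √l + 4 * k * Real.log l ^ 2 + C₀ ≤ l / 16 ∧ 64 * l ^ 3 ≤ Real.exp (l / 16)) ∧
      (∀ B : ℕ, (2 : ℝ) ^ B ≤ 2 * l → 2 * l < (2 : ℝ) ^ (B + 1) →
        5 * ((B : ℝ) * (3 / 2) ^ B) ≤ l / 16) ∧
      (8 * l ^ 2 * (5 * Real.exp 2 * Real.log l ^ 2 * Real.exp (-(Real.log l ^ 2 / 20))) *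
          l ^ A ≤ 1 ∧
        2 * l * ((N ! : ℝ) / l ^ N + 4 * Real.exp (-(l / 2))) * l ^ A ≤ 2) := by
  obtain ⟨c, hc⟩ : ∃ c : ℝ, c = 40 * Real.exp 2 := ⟨_, rfl⟩
  obtain ⟨b₀, hb₀⟩ := eventually_atTop.1
    ((tendsto_self_mul_const_pow_of_lt_one (show (0 : ℝ) ≤ 3 / 4 by norm_num)
      (by norm_num)).eventually_le_const (show (0 : ℝ) < 1 / 160 by norm_num))
  filter_upwards [eventually_ge_atTop (4 : ℝ),
    Real.tendsto_log_atTop.eventually_ge_atTop (max R (20 * ((A : ℝ) + 5 + |Real.log c|))),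
    Real.tendsto_log_atTop.eventually_ge_atTop (max 2 (9 * (k + 1) ^ 2 + 3)),
    (Real.isLittleO_pow_log_id_atTop (n := 3)).bound (show (0 : ℝ) < 1 / 4 by norm_num),
    (Real.isLittleO_pow_log_id_atTop (n := 2)).bound
      (show (0 : ℝ) < 1 / (64 * (4 * |k| + 1)) by positivity),
    eventually_ge_atTop ((64 * 16 * |k|) ^ 2), eventually_ge_atTop (64 * |C₀|),
    eventually_ge_atTop ((16 : ℝ) ^ 4 * (4 ! : ℝ) * 64), eventually_ge_atTop ((2 : ℝ) ^ b₀),
    eventually_ge_atTop (2 * (N ! : ℝ) + 1),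
    eventually_ge_atTop (8 * ((2 : ℝ) ^ (A + 2) * ((A + 2)! : ℝ)))]
    with l hl4 hLR hL2 hl3 hl2 hk2 hC₀ h64 hb hNf hA
  obtain ⟨L, hL⟩ : ∃ L, L = Real.log l := ⟨_, rfl⟩
  rw [← hL] at hLR hL2 hl3 hl2 ⊢
  rw [max_le_iff] at hLR hL2
  have hl0 : 0 < l := by linarith
  have hL0 : 0 < L := by linarith
  simp only [id, Real.norm_eq_abs, abs_of_pos hl0, abs_of_pos (pow_pos hL0 _)] at hl3 hl2
  have hA0 : (0 : ℝ) ≤ A := Nat.cast_nonneg A
  refine ⟨⟨hl4, hLR.1⟩, ?_, ⟨?_, ?_⟩, fun B hB1 hB2 => ?_, ?_, ?_⟩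
  · have h4 : 4 * L ≤ l / L ^ 2 := by
      rw [le_div_iff₀ (pow_pos hL0 2)]
      linarith [show 4 * L * L ^ 2 = 4 * L ^ 3 by ring]
    have h3 : Real.exp (2 * L) = l ^ 2 := by
      rw [show (2 : ℝ) * L = ((2 : ℕ) : ℝ) * L by norm_num, Real.exp_nat_mul, hL,
        Real.exp_log hl0]
    refine max_le ?_ (max_le ?_ ?_) <;> refine le_trans ?_ (Real.exp_le_exp.2 h4)
    · rw [show 4 * L = 2 * L + 2 * L by ring, Real.exp_add, h3]
      exact mul_le_mul_of_nonneg_right (by nlinarith) (sq_nonneg l)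
    · linarith [Real.add_one_le_exp (4 * L)]
    · linarith [Real.add_one_le_exp (4 * L)]
  · have hs : 16 * |k| * √l ≤ l / 64 := by
      have h1 : 64 * 16 * |k| ≤ √l := Real.le_sqrt_of_sq_le hk2
      linarith [Real.mul_self_sqrt hl0.le, mul_le_mul_of_nonneg_right h1 (Real.sqrt_nonneg l)]
    have hq : 4 * |k| * L ^ 2 ≤ l / 64 := by
      rw [div_mul_eq_mul_div, one_mul, le_div_iff₀ (by positivity)] at hl2
      linarith [pow_pos hL0 2]
    linarith [mul_le_mul_of_nonneg_right (le_abs_self k) (Real.sqrt_nonneg l),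
      mul_le_mul_of_nonneg_right (le_abs_self k) (sq_nonneg L), le_abs_self C₀]
  · have h := Real.pow_div_factorial_le_exp (l / 16) (by positivity) 4
    refine le_trans ?_ h
    rw [div_pow, div_div, le_div_iff₀ (by positivity)]
    linarith [mul_le_mul_of_nonneg_left h64 (pow_nonneg hl0.le 3)]
  · have hBb : b₀ ≤ B := by
      by_contra hlt
      have := pow_le_pow_right₀ (one_le_two : (1 : ℝ) ≤ 2) (show B + 1 ≤ b₀ by omega)
      linarith
    calc 5 * ((B : ℝ) * (3 / 2) ^ B) = 5 * ((B : ℝ) * (3 / 4) ^ B * 2 ^ B) := by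
          rw [mul_assoc (B : ℝ), ← mul_pow]
          norm_num
      _ ≤ 5 * (1 / 160 * (2 * l)) :=
          mul_le_mul_of_nonneg_left (mul_le_mul (hb₀ B hBb) hB1 (by positivity) (by norm_num))
            (by norm_num)
      _ = _ := by ring
  · have e : l = Real.exp L := hL ▸ (Real.exp_log hl0).symm
    have hc0 : 0 < c := hc ▸ by positivity
    have hLsq : L ^ 2 ≤ Real.exp (2 * L) := by
      have h := Real.add_one_le_exp L
      calc L ^ 2 ≤ Real.exp L ^ 2 := pow_le_pow_left₀ hL0.le (by linarith) 2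
        _ = _ := by rw [← Real.exp_nat_mul]; norm_num
    calc 8 * l ^ 2 * (5 * Real.exp 2 * L ^ 2 * Real.exp (-(L ^ 2 / 20))) * l ^ A
        = c * l ^ (A + 2) * L ^ 2 * Real.exp (-(L ^ 2 / 20)) := by rw [hc]; ring
      _ ≤ Real.exp (Real.log c) * Real.exp (((A + 2 : ℕ) : ℝ) * L) * Real.exp (2 * L) *
            Real.exp (-(L ^ 2 / 20)) := by
          rw [Real.exp_log hc0, Real.exp_nat_mul, ← e]
          exact mul_le_mul_of_nonneg_right (mul_le_mul_of_nonneg_left hLsq (by positivity))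
            (Real.exp_pos _).le
      _ ≤ 1 := by
          rw [← Real.exp_add, ← Real.exp_add, ← Real.exp_add, Real.exp_le_one_iff]
          push_cast
          linarith [mul_le_mul_of_nonneg_left hLR.2 hL0.le, le_abs_self (Real.log c),
            mul_le_mul_of_nonneg_left (show (1 : ℝ) ≤ L by linarith) (abs_nonneg (Real.log c))]
  · rw [mul_add, add_mul]
    have h1 : 2 * l * ((N ! : ℝ) / l ^ N) * l ^ A ≤ 1 := by
      have hp : l ^ (A + 2) * l ≤ l ^ N := by
        rw [← pow_succ]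
        exact pow_le_pow_right₀ (by linarith) hN
      rw [mul_div_assoc', div_mul_eq_mul_div, div_le_one (pow_pos hl0 N)]
      refine le_trans ?_ hp
      calc 2 * l * (N ! : ℝ) * l ^ A = 2 * (N ! : ℝ) * l ^ (A + 1) := by ring
        _ ≤ l * l ^ (A + 1) := mul_le_mul_of_nonneg_right (by linarith) (by positivity)
        _ ≤ _ := by
            rw [← pow_succ']
            exact le_mul_of_one_le_right (by positivity) (by linarith)
    have h2 : 2 * l * (4 * Real.exp (-(l / 2))) * l ^ A ≤ 1 := by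
      have h := Real.pow_div_factorial_le_exp (l / 2) (by positivity) (A + 2)
      rw [div_le_iff₀ (by positivity), div_pow, div_le_iff₀ (by positivity)] at h
      rw [Real.exp_neg, show 2 * l * (4 * (Real.exp (l / 2))⁻¹) * l ^ A =
        8 * l ^ (A + 1) / Real.exp (l / 2) by rw [pow_succ, div_eq_mul_inv]; ring,
        div_le_one (Real.exp_pos _)]
      rw [pow_succ] at h
      nlinarith [mul_le_mul_of_nonneg_right hA (pow_nonneg hl0.le (A + 1)), Real.exp_pos (l / 2)]
    linarith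

/-- **Harper's theorem.** -/
theorem exists_sharp_moment (hRH : Critical) (hk : 0 ≤ k) :
    ∃ C, 0 < C ∧ ∀ᶠ T : ℝ in atTop,
      ∫ t in T..2 * T, ‖riemannZeta (1 / 2 + t * Complex.I)‖ ^ (2 * k) ≤
        C * T * Real.log T ^ (k ^ 2) := by
  obtain ⟨Cz, hCz, hzeta⟩ := FA.ZetaUpper.exists_zeta_upper
  obtain ⟨Cd, hCd, hdec⟩ := FA.ZetaUpper.exists_logSum_re_le
  obtain ⟨Cm, hCm, hlogC, hdiff⟩ := FA.ZetaUpper.exists_recip_le
  obtain ⟨A, hA⟩ : ∃ A : ℕ, A = ⌈(2 * k) ^ 2 + 1⌉₊ := ⟨_, rfl⟩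
  obtain ⟨C₄, hC₄, hcrude⟩ :=
    FA.ZetaUpper.exists_moment_upper hRH (show 0 ≤ 2 * k by linarith) one_pos
  obtain ⟨N, hN⟩ : ∃ N, N = A + 3 := ⟨_, rfl⟩
  obtain ⟨S, hS⟩ : ∃ S, S = Real.log 16 + Cm := ⟨_, rfl⟩
  have hS0 : 0 ≤ S := hS ▸ add_nonneg (Real.log_nonneg (by norm_num)) hCm
  obtain ⟨v, hv⟩ : ∃ v, v = min (1 / (80 * (16 * (k + 1) + 1)))
      (min (1 / (6 * (N : ℝ))) (20 * Real.exp (-(40 * (64 * k + 1))) / (S + 20))) := ⟨_, rfl⟩
  have hN0 : (0 : ℝ) < N := Nat.cast_pos.2 (by omega)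
  have hv0 : 0 < v := hv ▸ lt_min (by positivity) (lt_min (by positivity) (by positivity))
  have hv1 : v ≤ 1 / (80 * (16 * (k + 1) + 1)) := hv ▸ min_le_left _ _
  have hv80 : v ≤ 1 / 80 := hv1.trans
    (div_le_div_of_nonneg_left zero_le_one (by norm_num) (by linarith))
  obtain ⟨K₀, hK₀⟩ : ∃ K₀, K₀ = 2 * k * (Cz + Cd + 11) + 2 := ⟨_, rfl⟩
  obtain ⟨Z, hZ⟩ : ∃ Z, Z = Real.exp (8 * k) + ∑' m, blockSeries k m := ⟨_, rfl⟩
  have hZ0 : 0 ≤ Z := hZ ▸ add_nonneg (Real.exp_pos _).le (tsum_nonneg (blockSeries_nonneg k))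
  obtain ⟨C, hC⟩ : ∃ C, C = Real.exp (K₀ + k ^ 2 * Cm) * (1 + Real.exp (64 * k / v ^ 4)) * Z +
      1 + C₄ + 3 := ⟨_, rfl⟩
  refine ⟨C, hC ▸ by positivity, ?_⟩
  filter_upwards [hcrude, eventually_ge_atTop (4 : ℝ),
    Real.tendsto_log_atTop.eventually (eventually_conditions k K₀
      (max (max 5 Cm) (max (1 / v ^ 2) 1)) A N (by omega))] with T hcr hT4 hev
  obtain ⟨l, hl⟩ : ∃ l, l = Real.log T := ⟨_, rfl⟩
  obtain ⟨L, hL⟩ : ∃ L, L = Real.log l := ⟨_, rfl⟩
  rw [← hl] at hev hcr ⊢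
  rw [← hL] at hev
  obtain ⟨⟨hl4, hLR⟩, hcut, ⟨hexpbd, h64⟩, hlen, hrare1, hrare2⟩ := hev
  simp only [max_le_iff] at hLR hcut
  obtain ⟨⟨hL5, hCmL⟩, hLv, hL1⟩ := hLR
  have hT0 : 0 < T := by linarith
  have hTl : T = Real.exp l := hl ▸ (Real.exp_log hT0).symm
  have hl0 : 0 ≤ l := by linarith
  have hl1 : 1 ≤ l := by linarith
  have hL0 : 0 < L := by linarith
  -- the levels
  have hsqrt : 1 ≤ v * √L := by
    rw [← div_le_iff₀' hv0]
    refine Real.le_sqrt_of_sq_le ?_
    rwa [div_pow, one_pow]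
  obtain ⟨I, hI1, hI2⟩ := exists_nat_pow_near hsqrt one_lt_two
  obtain ⟨B, hB1, hB2⟩ := exists_nat_pow_near (show 1 ≤ 2 * l by linarith) one_lt_two
  have hIv : level L I ≤ v := by
    rw [level, div_le_iff₀ (Real.sqrt_pos.2 hL0)]
    exact hI1
  have hvI : v ≤ 2 * level L I := by
    rw [← level_succ, level, le_div_iff₀ (Real.sqrt_pos.2 hL0)]
    exact hI2.le
  have hI80 : level L I ≤ 1 / (80 * (16 * (k + 1) + 1)) := hIv.trans hv1
  have hI1' : level L I ≤ 1 := by linarith
  have hcut0 : cut L l 0 = Real.exp (l / L ^ 2) := by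
    rw [cut, level_zero_pow hL0, div_mul_eq_mul_div, one_mul]
  rw [← hcut0] at hcut
  obtain ⟨hcut4, hcut3, hcut9⟩ := hcut
  have hB4 : ((4 ^ B : ℕ) : ℝ) ≤ cut L l 0 := by
    push_cast
    refine le_trans ?_ hcut4
    rw [show (4 : ℝ) = 2 ^ 2 by norm_num, ← pow_mul, mul_comm, pow_mul,
      show (2 : ℝ) ^ 2 * l ^ 2 = (2 * l) ^ 2 by ring]
    exact pow_le_pow_left₀ (by positivity) hB1 2
  have hBl : l ≤ (2 : ℝ) ^ B := by
    rw [pow_succ] at hB2
    linarith
  have hIl : (I : ℝ) + 1 ≤ 2 * l := by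
    have h1 : (I : ℝ) + 1 ≤ (2 : ℝ) ^ I := by exact_mod_cast Nat.lt_two_pow_self
    have h2 : √L ≤ L := Real.sqrt_le_iff.2 ⟨hL0.le, le_self_pow₀ hL1 two_ne_zero⟩
    have h3 : L ≤ l := hL ▸ Real.log_le_self hl0
    linarith [mul_le_mul_of_nonneg_right (show v ≤ 1 by linarith) (Real.sqrt_nonneg L)]
  have hBl' : (B : ℝ) + 1 ≤ 4 * l := by
    have h1 : (B : ℝ) + 1 ≤ (2 : ℝ) ^ B := by exact_mod_cast Nat.lt_two_pow_self
    linarith
  -- the pointwise bound
  obtain ⟨E, hE⟩ : ∃ E : ℕ → ℕ → ℝ, E = fun j m : ℕ => Real.exp K₀ *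
      Real.exp (4 * k / level L j ^ 4) * Real.exp (8 * k * √(2 : ℝ) ^ m) := ⟨_, rfl⟩
  obtain ⟨F, hF⟩ : ∃ F : ℕ → ℕ → ℝ → ℝ, F = fun j m t =>
      expTerm k L l j m t * failTerm L l I j t * badTerm L l j m t := ⟨_, rfl⟩
  have hF0 : ∀ j m t, 0 ≤ F j m t := fun j m t => hF ▸ mul_nonneg
    (mul_nonneg (expTerm_nonneg k L l j m t) (failTerm_nonneg L l I j t)) (badTerm_nonneg L l j m t)
  have hE0 : ∀ j m, 0 ≤ E j m := fun j m => by rw [hE]; positivity
  obtain ⟨lam, hlam⟩ : ∃ lam : ℝ, lam = l ^ A := ⟨_, rfl⟩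
  have hlam0 : 0 < lam := hlam ▸ pow_pos (by linarith) A
  have hmain : ∀ t ∈ Set.Icc T (2 * T) \ rareSet L l I B,
      ‖riemannZeta (1 / 2 + t * Complex.I)‖ ^ (2 * k) ≤
        ∑ j ∈ range (I + 1), ∑ m ∈ range (B + 1), E j m * F j m t := by
    rintro t ⟨ht, hnot⟩
    obtain ⟨j, hjI, m, hmB, hgood, hclean, htail, hfail, hbad⟩ := exists_level_block hL0 hnot
    refine le_trans ?_ ((single_le_sum (f := fun m => E j m * F j m t)
      (fun m _ => mul_nonneg (hE0 j m) (hF0 j m t)) (mem_range.2 (show m < B + 1 by omega))).trans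
      (single_le_sum (f := fun j => ∑ m ∈ range (B + 1), E j m * F j m t)
        (fun j _ => sum_nonneg fun m _ => mul_nonneg (hE0 j m) (hF0 j m t))
        (mem_range.2 (show j < I + 1 by omega))))
    obtain ⟨x, hx⟩ : ∃ x, x = cut L l j := ⟨_, rfl⟩
    have hx3 : 3 ≤ x := hx ▸ hcut3.trans (cut_mono hl0 (Nat.zero_le j))
    have hu := level_pos hL0 j
    have hu4 : level L j ^ 4 ≤ 1 :=
      pow_le_one₀ hu.le ((level_mono L hjI).trans hI1')
    have hlogx : Real.log x = level L j ^ 4 * l := by rw [hx, cut, Real.log_exp]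
    have ht0 : 0 < t := hT0.trans_le ht.1
    have hxt : x ≤ t ^ 4 := by
      have h1 : x ≤ T := by
        rw [hx, hTl, cut, Real.exp_le_exp]
        exact mul_le_of_le_one_left hl0 hu4
      exact (h1.trans ht.1).trans (le_self_pow₀ (by linarith [ht.1]) (by norm_num))
    have hz := hzeta hRH x t hx3 (by rw [abs_of_pos ht0]; linarith [ht.1]) hxt
    have hlt : Real.log (|t| + 2) / Real.log x ≤ 2 / level L j ^ 4 := by
      have : Real.log (|t| + 2) ≤ 2 * l := by
        rw [abs_of_pos ht0, hl, show 2 * Real.log T = Real.log (T ^ 2) by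
          rw [Real.log_pow]; norm_num]
        exact Real.log_le_log (by linarith) (by
          rw [sq]
          linarith [mul_le_mul_of_nonneg_right hT4 hT0.le, ht.2])
      rw [hlogx, div_le_div_iff₀ (by positivity) (by positivity)]
      linarith [mul_le_mul_of_nonneg_right this (pow_pos hu 4).le]
    have hsum := hdec x t hx3
    refine (Real.rpow_le_rpow (norm_nonneg _) hz (by linarith)).trans ?_
    rw [← Real.exp_mul]
    refine (Real.exp_le_exp.2 (mul_le_mul_of_nonneg_right (show _ ≤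
      (primePoly (primesUpTo ⌊x⌋₊) (lineCoeff x) t).re +
        (primePoly (primesUpTo ⌊√x⌋₊) (squareCoeff x) (2 * t)).re +
        (2 / level L j ^ 4 + (Cz + Cd)) by linarith) (by linarith))).trans ?_
    rw [add_mul, Real.exp_add]
    have hprimes := exp_primeSums_le (k := k) hk hL0 hl0 hcut3 (I := I) (B := B)
      (by linarith) hB4 hjI hmB hgood hclean htail
    rw [← hx] at hprimes
    rw [mul_comm _ (2 * k)]
    refine (mul_le_mul_of_nonneg_right hprimes (Real.exp_pos _).le).trans ?_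
    rw [mul_right_comm, ← Real.exp_add, hE, hF]
    simp only
    rw [← Real.exp_add, ← Real.exp_add]
    refine mul_le_mul (le_of_eq (congrArg Real.exp ?_)) ?_ (expTerm_nonneg k L l j m t)
      (Real.exp_pos _).le
    · rw [hK₀]
      ring
    · exact (le_mul_of_one_le_right (expTerm_nonneg k L l j m t) hfail).trans
        (le_mul_of_one_le_right (mul_nonneg (expTerm_nonneg k L l j m t)
          (failTerm_nonneg L l I j t)) hbad)
  obtain ⟨f, hf⟩ : ∃ f : ℝ → ℝ,
      f = fun t : ℝ => ‖riemannZeta (1 / 2 + t * Complex.I)‖ ^ (2 * k) := ⟨_, rfl⟩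
  have hpt : ∀ t ∈ Set.Icc T (2 * T), f t ≤
      (∑ j ∈ range (I + 1), ∑ m ∈ range (B + 1), E j m * F j m t) + f t ^ 2 / (2 * lam) +
        (rareSet L l I B).indicator (fun _ => lam) t := by
    intro t ht
    have hs : 0 ≤ ∑ j ∈ range (I + 1), ∑ m ∈ range (B + 1), E j m * F j m t :=
      sum_nonneg fun j _ => sum_nonneg fun m _ => mul_nonneg (hE0 j m) (hF0 j m t)
    by_cases hr : t ∈ rareSet L l I B
    · rw [Set.indicator_of_mem hr]
      have h : f t ≤ f t ^ 2 / (2 * lam) + lam := by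
        rw [div_add' _ _ _ (by positivity), le_div_iff₀ (by positivity)]
        linarith [sq_nonneg (f t - lam), sq_nonneg (f t), sq_nonneg lam]
      linarith
    · rw [Set.indicator_of_notMem hr, add_zero]
      have h1 : f t ≤ ∑ j ∈ range (I + 1), ∑ m ∈ range (B + 1), E j m * F j m t := by
        rw [hf]
        exact hmain t ⟨ht, hr⟩
      have : 0 ≤ f t ^ 2 / (2 * lam) := by positivity
      linarith
  have hfc : Continuous f :=
    hf ▸ continuous_zeta_line.norm.rpow_const fun _ => Or.inr (by linarith)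
  have hFc : ∀ j m, Continuous fun t => E j m * F j m t := fun j m => hF ▸ continuous_const.mul
    (((continuous_expTerm k L l j m).mul (continuous_failTerm L l I j)).mul
      (continuous_badTerm L l j m))
  have hsumc : Continuous fun t => ∑ j ∈ range (I + 1), ∑ m ∈ range (B + 1), E j m * F j m t :=
    continuous_finsetSum _ fun j _ => continuous_finsetSum _ fun m _ => hFc j m
  have hfin : volume (Set.Icc T (2 * T)) ≠ ⊤ := by simp
  have hmeas := (isOpen_rareSet L l I B).measurableSet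
  have hint : IntegrableOn ((rareSet L l I B).indicator fun _ => lam) (Set.Icc T (2 * T)) :=
    (integrableOn_const hfin).indicator hmeas
  have hI1i : IntegrableOn (fun t => (∑ j ∈ range (I + 1), ∑ m ∈ range (B + 1), E j m * F j m t) +
      f t ^ 2 / (2 * lam)) (Set.Icc T (2 * T)) :=
    (hsumc.add ((hfc.pow 2).div_const _)).integrableOn_Icc
  have hTT : T ≤ 2 * T := by linarith
  show _ ≤ _
  rw [← hf, intervalIntegral.integral_of_le hTT, ← integral_Icc_eq_integral_Ioc]
  refine (setIntegral_mono_on hfc.integrableOn_Icc (hI1i.fun_add hint) measurableSet_Icc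
    hpt).trans ?_
  have hq : IntegrableOn (fun t => f t ^ 2 / (2 * lam)) (Set.Icc T (2 * T)) :=
    ((hfc.pow 2).div_const _).integrableOn_Icc
  rw [integral_add hI1i hint, integral_add hsumc.integrableOn_Icc hq,
    setIntegral_indicator hmeas, setIntegral_const,
    integral_Icc_eq_integral_Ioc, ← intervalIntegral.integral_of_le hTT,
    integral_Icc_eq_integral_Ioc, ← intervalIntegral.integral_of_le hTT,
    intervalIntegral.integral_div, intervalIntegral.integral_finsetSum fun j _ =>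
      (continuous_finsetSum _ fun m _ => hFc j m).intervalIntegrable _ _]
  simp only [intervalIntegral.integral_finsetSum fun m _ => (hFc _ m).intervalIntegrable T (2 * T),
    intervalIntegral.integral_const_mul, smul_eq_mul]
  obtain ⟨P, hP⟩ : ∃ P, P = T * l ^ (k ^ 2) := ⟨_, rfl⟩
  have hPT : T ≤ P := hP ▸ le_mul_of_one_le_right hT0.le (Real.one_le_rpow hl1 (sq_nonneg k))
  -- the crude parts
  have hrare : volume.real (Set.Icc T (2 * T) ∩ rareSet L l I B) * lam ≤ 3 * T := by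
    have hm := measureReal_rareSet_le (N := N) hL5 hl1 hCmL hlogC hL hcut3 (I := I) hB4 hBl
      (by
        have h6 : v ≤ 1 / (6 * (N : ℝ)) := hv ▸ (min_le_right _ _).trans (min_le_left _ _)
        rw [le_div_iff₀ (by positivity)] at h6
        have h4 : level L I ^ 4 ≤ level L I := by
          simpa using pow_le_pow_of_le_one (level_pos hL0 I).le hI1' (show 1 ≤ 4 by norm_num)
        linarith [mul_le_mul_of_nonneg_left (h4.trans hIv) hN0.le]) hTl
    refine (mul_le_mul_of_nonneg_right hm hlam0.le).trans ?_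
    rw [mul_assoc, mul_comm (3 : ℝ)]
    refine mul_le_mul_of_nonneg_left ?_ hT0.le
    rw [add_mul, hlam]
    refine le_trans (add_le_add ?_ ?_) (le_of_eq (show (1 : ℝ) + 2 = 3 by norm_num))
    · refine le_trans (mul_le_mul_of_nonneg_right (mul_le_mul_of_nonneg_right ?_ (by positivity))
        (by positivity)) hrare1
      calc ((I : ℝ) + 1) * ((B : ℝ) + 1) ≤ 2 * l * (4 * l) :=
            mul_le_mul hIl hBl' (by positivity) (by positivity)
        _ = _ := by ring
    · exact le_trans (mul_le_mul_of_nonneg_right (mul_le_mul_of_nonneg_right hIl (by positivity))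
        (by positivity)) hrare2
  have hsq : (∫ t in T..2 * T, f t ^ 2) / (2 * lam) ≤ C₄ * T := by
    have e : ∀ t : ℝ, f t ^ 2 = ‖riemannZeta (1 / 2 + t * Complex.I)‖ ^ (2 * (2 * k)) := fun t => by
      rw [hf, ← Real.rpow_natCast, ← Real.rpow_mul (norm_nonneg _)]
      ring_nf
    simp only [e]
    rw [div_le_iff₀ (by positivity)]
    refine hcr.trans ?_
    have : l ^ ((2 * k) ^ 2 + 1) ≤ lam := by
      rw [hlam, ← Real.rpow_natCast l A]
      exact Real.rpow_le_rpow_of_exponent_le hl1 (hA ▸ Nat.le_ceil _)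
    linarith [mul_le_mul_of_nonneg_left this (mul_nonneg hC₄.le hT0.le),
      mul_nonneg (mul_nonneg hC₄.le hT0.le) hlam0.le]
  -- the main part
  obtain ⟨fD, hfD⟩ : ∃ fD : ℕ → ℝ, fD = fun j => if j < I then ((I - j : ℕ) : ℝ) *
      ((Real.log 16 + Cm) * level L (j + 1) ^ 2 / 20) ^ failExp L (j + 1) else 1 := ⟨_, rfl⟩
  obtain ⟨bD, hbD⟩ : ∃ bD : ℕ → ℝ, bD = fun m => if m = 0 then 1 else
      ((squareExp m)! : ℝ) * (2 / (81 / 50 : ℝ) ^ m) ^ squareExp m := ⟨_, rfl⟩
  have hfD0 : ∀ j, 0 ≤ fD j := fun j => by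
    have : 0 ≤ Real.log 16 + Cm := hS ▸ hS0
    have := level_pos hL0 (j + 1)
    simp only [hfD]
    split_ifs <;> positivity
  have hlogpow : Real.exp (k ^ 2 * (L + Cm)) = Real.exp (k ^ 2 * Cm) * l ^ (k ^ 2) := by
    rw [Real.rpow_def_of_pos (by linarith), ← hL, ← Real.exp_add]
    ring_nf
  have hterms : ∀ j ∈ range (I + 1), ∀ m ∈ range (B + 1),
      E j m * ∫ t in T..2 * T, F j m t ≤
        T * (Real.exp (K₀ + k ^ 2 * Cm) * l ^ (k ^ 2)) *
          (Real.exp (4 * k / level L j ^ 4) * fD j) *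
          (Real.exp (8 * k * √(2 : ℝ) ^ m) * bD m) +
        8 * l * Real.exp (l / 16) * Real.exp (27 * l / 80) := by
    intro j hj m hm
    rw [mem_range, Nat.lt_succ_iff] at hj hm
    have h := integral_term_le (k := k) (C := Cm) hk (by linarith) hl1 hlogC hdiff hCm hL hcut3
      hcut9 hI80 hB4 (hlen B hB1 hB2) hj hm hT0.le
    rw [hF]
    refine (mul_le_mul_of_nonneg_left h (hE0 j m)).trans ?_
    rw [mul_add]
    refine add_le_add (le_of_eq ?_) ?_
    · rw [hlogpow, hE, hfD, hbD, Real.exp_add]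
      ring
    · have hEle : E j m ≤ Real.exp (l / 16) := by
        simp only [hE]
        rw [← Real.exp_add, ← Real.exp_add, Real.exp_le_exp]
        refine le_trans ?_ hexpbd
        have h1 : 4 * k / level L j ^ 4 ≤ 4 * k * L ^ 2 := by
          have h0 : level L 0 ^ 4 ≤ level L j ^ 4 :=
            pow_le_pow_left₀ (level_pos hL0 0).le (level_mono L (Nat.zero_le j)) 4
          rw [level_zero_pow hL0, div_le_iff₀ (by positivity)] at h0
          rw [div_le_iff₀ (pow_pos (level_pos hL0 j) 4)]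
          linarith [mul_le_mul_of_nonneg_left h0 (show 0 ≤ 4 * k by linarith)]
        have h2 : √(2 : ℝ) ^ m ≤ 2 * √l := by
          refine (pow_le_pow_right₀ (Real.one_le_sqrt.2 one_le_two) hm).trans ?_
          have e : √(2 : ℝ) ^ B = √((2 : ℝ) ^ B) := by
            rw [← Real.sqrt_sq (pow_nonneg (Real.sqrt_nonneg 2) B), ← pow_mul, mul_comm, pow_mul,
              Real.sq_sqrt zero_le_two]
          rw [e, show 2 * √l = √(4 * l) by
            rw [Real.sqrt_mul (by norm_num : (0 : ℝ) ≤ 4), show (4 : ℝ) = 2 ^ 2 by norm_num,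
              Real.sqrt_sq zero_le_two]]
          exact Real.sqrt_le_sqrt (by linarith)
        linarith [mul_le_mul_of_nonneg_left h2 (show 0 ≤ 8 * k by linarith)]
      refine (mul_le_mul hEle (mul_le_mul_of_nonneg_right (show 4 * ((I : ℝ) + 1) ≤ 8 * l by
        linarith) (Real.exp_pos _).le) (by positivity) (Real.exp_pos _).le).trans (le_of_eq ?_)
      ring
  have hj : ∑ j ∈ range (I + 1), Real.exp (4 * k / level L j ^ 4) * fD j ≤
      1 + Real.exp (64 * k / v ^ 4) := by
    rw [sum_range_succ]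
    refine add_le_add ?_ ?_
    · refine (sum_le_sum (g := fun j => level L (j + 1)) fun j hj => ?_).trans ?_
      · rw [mem_range] at hj
        have hu := level_pos hL0 (j + 1)
        have huv : level L (j + 1) ≤ v := (level_mono L hj).trans hIv
        have hu4 : 40 * level L (j + 1) ^ 4 ≤ 1 := by
          have : level L (j + 1) ^ 4 ≤ level L (j + 1) := by
            simpa using pow_le_pow_of_le_one hu.le (by linarith) (show 1 ≤ 4 by norm_num)
          linarith
        have hΛ : S * level L (j + 1) ^ 2 / 20 ≤ Real.exp (-(40 * (64 * k + 1))) := by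
          have h2 : v ≤ 20 * Real.exp (-(40 * (64 * k + 1))) / (S + 20) :=
            hv ▸ (min_le_right _ _).trans (min_le_right _ _)
          rw [le_div_iff₀ (by positivity)] at h2
          have h3 : level L (j + 1) ^ 2 ≤ v := le_trans
            (by simpa using pow_le_pow_of_le_one hu.le (by linarith) (show 1 ≤ 2 by norm_num)) huv
          linarith [mul_le_mul_of_nonneg_left h3 hS0]
        have hn : ((I - j : ℕ) : ℝ) * level L (j + 1) ≤ 1 := by
          have h1 : ((I - j : ℕ) : ℝ) ≤ (2 : ℝ) ^ (I - j) := by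
            exact_mod_cast Nat.lt_two_pow_self.le
          have h2 : (2 : ℝ) ^ (I - j) * level L (j + 1) = 2 * level L I := by
            rw [level, level, ← mul_div_assoc, ← pow_add, show I - j + (j + 1) = I + 1 by omega,
              pow_succ]
            ring
          linarith [mul_le_mul_of_nonneg_right h1 hu.le]
        have h := fail_level_le hk hS0 hu hu4 hΛ hn
        simp only [hfD, if_pos hj]
        rw [← hS, failExp]
        refine le_trans (le_of_eq ?_) h
        rw [level_succ, mul_pow]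
        ring_nf
      · refine le_trans ?_ ((sum_level_le hL0 I).trans (by linarith))
        exact (le_add_of_nonneg_right (level_pos hL0 0).le).trans_eq
          (sum_range_succ' (level L) I).symm
    · simp only [hfD, lt_irrefl, if_false, mul_one, Real.exp_le_exp]
      rw [div_le_div_iff₀ (pow_pos (level_pos hL0 I) 4) (pow_pos hv0 4)]
      have h := pow_le_pow_left₀ hv0.le hvI 4
      linarith [mul_le_mul_of_nonneg_left h (show 0 ≤ 4 * k by linarith)]
  have hm : ∑ m ∈ range (B + 1), Real.exp (8 * k * √(2 : ℝ) ^ m) * bD m ≤ Z := by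
    rw [sum_range_succ', hZ, add_comm]
    refine add_le_add (by simp [hbD]) ?_
    refine le_trans (le_of_eq (sum_congr rfl fun m _ => ?_))
      ((((summable_nat_add_iff 1).2 (summable_blockSeries k)).sum_le_tsum (range B) fun m _ =>
        blockSeries_nonneg k (m + 1)).trans ?_)
    · simp [hbD, blockSeries]
    · rw [(summable_blockSeries k).tsum_eq_zero_add]
      exact le_add_of_nonneg_left (blockSeries_nonneg k 0)
  have herr : ((I : ℝ) + 1) * ((B : ℝ) + 1) *
      (8 * l * Real.exp (l / 16) * Real.exp (27 * l / 80)) ≤ T := by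
    calc ((I : ℝ) + 1) * ((B : ℝ) + 1) * (8 * l * Real.exp (l / 16) * Real.exp (27 * l / 80))
        ≤ 2 * l * (4 * l) * (8 * l * Real.exp (l / 16) * Real.exp (27 * l / 80)) :=
          mul_le_mul_of_nonneg_right (mul_le_mul hIl hBl' (by positivity) (by positivity))
            (by positivity)
      _ = 64 * l ^ 3 * (Real.exp (l / 16) * Real.exp (27 * l / 80)) := by ring
      _ ≤ Real.exp (l / 16) * (Real.exp (l / 16) * Real.exp (27 * l / 80)) :=
          mul_le_mul_of_nonneg_right h64 (by positivity)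
      _ ≤ _ := by
          rw [hTl, ← Real.exp_add, ← Real.exp_add, Real.exp_le_exp]
          linarith
  have hsum : ∑ j ∈ range (I + 1), ∑ m ∈ range (B + 1), E j m * ∫ t in T..2 * T, F j m t ≤
      T * (Real.exp (K₀ + k ^ 2 * Cm) * l ^ (k ^ 2)) * (1 + Real.exp (64 * k / v ^ 4)) * Z + T := by
    refine (sum_le_sum fun j hj => sum_le_sum (hterms j hj)).trans ?_
    simp only [sum_add_distrib, sum_const, card_range, nsmul_eq_mul, ← mul_sum, ← sum_mul]
    have hm0 : 0 ≤ ∑ m ∈ range (B + 1), Real.exp (8 * k * √(2 : ℝ) ^ m) * bD m :=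
      sum_nonneg fun m _ => by simp only [hbD]; split_ifs <;> positivity
    refine add_le_add ?_ ?_
    · exact mul_le_mul (mul_le_mul_of_nonneg_left hj (by positivity)) hm hm0 (by positivity)
    · refine le_trans (le_of_eq ?_) herr
      push_cast
      ring
  refine (add_le_add (add_le_add hsum hsq) hrare).trans ?_
  rw [hC, mul_assoc _ T, ← hP]
  have hP0 : 0 ≤ P := hT0.le.trans hPT
  rw [show T * (Real.exp (K₀ + k ^ 2 * Cm) * l ^ (k ^ 2)) =
    Real.exp (K₀ + k ^ 2 * Cm) * P by rw [hP]; ring]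
  linarith [mul_le_mul_of_nonneg_left hPT hC₄.le]

end FA.SharpMoments
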