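import Fermat.Agent.SelbergCLT.Moments

/-!
# Products of Dirichlet polynomials over disjoint sets of primes

A finite sum of terms `c (n/m)^(-it)` has the mean value `∑_{n = m} c` over `[T, 2T]`, up to the
length of the sum. If two sums use disjoint sets of primes the diagonal of the product is the
product of the diagonals, by unique factorisation.
-/

set_option autoImplicit false

noncomputable section

namespace FA.SharpMoments

open Finset MeasureTheory
open FA.Resonance (wave norm_wave wave_add continuous_wave inv_le_abs_log_sub)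
open FA.SelbergCLT (primePoly tuples diagPairs tupleWeight tupleWeight_nonneg sum_tupleWeight
  primePoly_pow_mul_conj prod_pos_of_mem mem_tuples norm_integral_wave_le wave_zero)
open scoped ComplexConjugate

/-- `n` is positive and its prime factors lie in `S`. -/
def Factored (S : Set ℕ) (n : ℕ) : Prop := n ≠ 0 ∧ ∀ p : ℕ, p.Prime → p ∣ n → p ∈ S

variable {S S' : Set ℕ} {N N' W W' D D' : ℝ} {F G : ℝ → ℂ}

theorem Factored.mul {m n : ℕ} (hm : Factored S m) (hn : Factored S' n) :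
    Factored (S ∪ S') (m * n) :=
  ⟨mul_ne_zero hm.1 hn.1, fun p hp hdvd => (hp.dvd_mul.1 hdvd).imp (hm.2 p hp) (hn.2 p hp)⟩

theorem mul_eq_mul_iff_of_disjoint (h : Disjoint S S') {n m n' m' : ℕ} (hn : Factored S n)
    (hm : Factored S m) (hn' : Factored S' n') (hm' : Factored S' m') :
    n * n' = m * m' ↔ n = m ∧ n' = m' := by
  refine ⟨fun he => ?_, fun he => by rw [he.1, he.2]⟩
  have hco : ∀ a b : ℕ, Factored S a → Factored S' b → a.Coprime b := fun a b ha hb =>
    Nat.coprime_of_dvd fun p hp h1 h2 =>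
      Set.disjoint_left.1 h (ha.2 p hp h1) (hb.2 p hp h2)
  have e : n = m := Nat.dvd_antisymm
    ((hco n m' hn hm').dvd_of_dvd_mul_right (he ▸ dvd_mul_right _ _))
    ((hco m n' hm hn').dvd_of_dvd_mul_right (he ▸ dvd_mul_right _ _))
  subst e
  exact ⟨rfl, Nat.eq_of_mul_eq_mul_left (Nat.pos_of_ne_zero hn.1) he⟩

/-- `F` is a sum of terms `c (n/m)^(-it)` with `n, m ≤ N` made of primes in `S`, with `∑ ‖c‖ ≤ W`
and `∑_{n = m} c = D`. -/
def Expandable (S : Set ℕ) (N W D : ℝ) (F : ℝ → ℂ) : Prop :=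
  ∃ (ι : Type) (s : Finset ι) (c : ι → ℂ) (n m : ι → ℕ),
    (∀ i ∈ s, Factored S (n i) ∧ Factored S (m i) ∧ (n i : ℝ) ≤ N ∧ (m i : ℝ) ≤ N) ∧
    ∑ i ∈ s, ‖c i‖ ≤ W ∧ ∑ i ∈ s, (if n i = m i then c i else 0) = (D : ℂ) ∧
    ∀ t, F t = ∑ i ∈ s, c i * wave (Real.log (m i) - Real.log (n i)) t

theorem Expandable.mono (h : Expandable S N W D F) (hS : S ⊆ S') (hN : N ≤ N') (hW : W ≤ W') :
    Expandable S' N' W' D F := by
  obtain ⟨ι, s, c, n, m, h1, h2, h3, h4⟩ := h
  exact ⟨ι, s, c, n, m, fun i hi => ⟨⟨(h1 i hi).1.1, fun p hp hd => hS ((h1 i hi).1.2 p hp hd)⟩,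
    ⟨(h1 i hi).2.1.1, fun p hp hd => hS ((h1 i hi).2.1.2 p hp hd)⟩, (h1 i hi).2.2.1.trans hN,
    (h1 i hi).2.2.2.trans hN⟩, h2.trans hW, h3, h4⟩

theorem Expandable.congr (h : Expandable S N W D F) (hFG : ∀ t, F t = G t) :
    Expandable S N W D G := by
  rwa [← funext hFG]

theorem expandable_one (S : Set ℕ) : Expandable S 1 1 1 fun _ => 1 :=
  ⟨Unit, {()}, fun _ => 1, fun _ => 1, fun _ => 1,
    fun _ _ => ⟨⟨one_ne_zero, fun p hp hd => absurd (Nat.dvd_one.1 hd) hp.ne_one⟩,
      ⟨one_ne_zero, fun p hp hd => absurd (Nat.dvd_one.1 hd) hp.ne_one⟩, by simp, by simp⟩,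
    by simp, by simp, fun t => by simp [wave_zero]⟩

theorem Expandable.smul (h : Expandable S N W D F) {a : ℝ} (ha : 0 ≤ a) :
    Expandable S N (a * W) (a * D) fun t => (a : ℂ) * F t := by
  obtain ⟨ι, s, c, n, m, h1, h2, h3, h4⟩ := h
  refine ⟨ι, s, fun i => (a : ℂ) * c i, n, m, h1, ?_, ?_, fun t => ?_⟩
  · simp only [norm_mul, Complex.norm_real, Real.norm_of_nonneg ha, ← mul_sum]
    exact mul_le_mul_of_nonneg_left h2 ha
  · push_cast
    rw [← h3, mul_sum]
    exact sum_congr rfl fun i _ => by rw [mul_ite, mul_zero]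
  · simp only [h4, mul_sum]
    exact sum_congr rfl fun i _ => (mul_assoc _ _ _).symm

/-- Sums. -/
theorem Expandable.sum {κ : Type} (u : Finset κ) {W D : κ → ℝ} {F : κ → ℝ → ℂ}
    (h : ∀ j ∈ u, Expandable S N (W j) (D j) (F j)) :
    Expandable S N (∑ j ∈ u, W j) (∑ j ∈ u, D j) fun t => ∑ j ∈ u, F j t := by
  classical
  have h' : ∀ j : u, Expandable S N (W j) (D j) (F j) := fun j => h j j.2
  choose ι s c n m h1 h2 h3 h4 using h'
  refine ⟨(j : u) × ι j, u.attach.sigma s, fun x => c x.1 x.2, fun x => n x.1 x.2,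
    fun x => m x.1 x.2, fun x hx => h1 x.1 x.2 (mem_sigma.1 hx).2, ?_, ?_, fun t => ?_⟩
  · rw [sum_sigma, ← sum_attach u W]
    exact sum_le_sum fun j _ => h2 j
  · rw [sum_sigma, ← sum_attach u D]
    push_cast
    exact sum_congr rfl fun j _ => h3 j
  · simp only
    rw [sum_sigma, ← sum_attach u fun j => F j t]
    exact sum_congr rfl fun j _ => h4 j t

/-- **Products over disjoint sets of primes.** -/
theorem Expandable.mul (h : Expandable S N W D F) (h' : Expandable S' N' W' D' G)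
    (hd : Disjoint S S') : Expandable (S ∪ S') (N * N') (W * W') (D * D') fun t => F t * G t := by
  obtain ⟨ι, s, c, n, m, h1, h2, h3, h4⟩ := h
  obtain ⟨κ, u, e, n', m', g1, g2, g3, g4⟩ := h'
  refine ⟨ι × κ, s ×ˢ u, fun x => c x.1 * e x.2, fun x => n x.1 * n' x.2,
    fun x => m x.1 * m' x.2, fun x hx => ?_, ?_, ?_, fun t => ?_⟩
  · rw [mem_product] at hx
    obtain ⟨a1, a2, a3, a4⟩ := h1 x.1 hx.1
    obtain ⟨b1, b2, b3, b4⟩ := g1 x.2 hx.2
    refine ⟨a1.mul b1, a2.mul b2, ?_, ?_⟩ <;> push_cast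
    · exact mul_le_mul a3 b3 (Nat.cast_nonneg _) ((Nat.cast_nonneg _).trans a3)
    · exact mul_le_mul a4 b4 (Nat.cast_nonneg _) ((Nat.cast_nonneg _).trans a4)
  · simp only [norm_mul]
    rw [sum_product]
    simp only
    rw [← sum_mul_sum]
    exact mul_le_mul h2 g2 (sum_nonneg fun _ _ => norm_nonneg _)
      ((sum_nonneg fun _ _ => norm_nonneg _).trans h2)
  · push_cast
    rw [← h3, ← g3, sum_mul_sum, sum_product]
    refine sum_congr rfl fun i hi => sum_congr rfl fun j hj => ?_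
    simp only [mul_eq_mul_iff_of_disjoint hd (h1 i hi).1 (h1 i hi).2.1 (g1 j hj).1 (g1 j hj).2.1]
    by_cases p : n i = m i <;> by_cases q : n' j = m' j <;> simp [p, q]
  · simp only [h4, g4]
    rw [sum_mul_sum, sum_product]
    refine sum_congr rfl fun i hi => sum_congr rfl fun j hj => ?_
    push_cast
    rw [Real.log_mul (Nat.cast_ne_zero.2 (h1 i hi).2.1.1) (Nat.cast_ne_zero.2 (g1 j hj).2.1.1),
      Real.log_mul (Nat.cast_ne_zero.2 (h1 i hi).1.1) (Nat.cast_ne_zero.2 (g1 j hj).1.1),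
      mul_mul_mul_comm (c i), ← wave_add]
    exact congrArg (fun r : ℝ => c i * e j * wave r t) (by ring)

/-- Products over a pairwise disjoint family. -/
theorem Expandable.prod {κ : Type} (u : Finset κ) {S : κ → Set ℕ} {N W D : κ → ℝ}
    {F : κ → ℝ → ℂ} (h : ∀ j ∈ u, Expandable (S j) (N j) (W j) (D j) (F j))
    (hd : (u : Set κ).Pairwise fun i j => Disjoint (S i) (S j)) :
    Expandable (⋃ j ∈ u, S j) (∏ j ∈ u, N j) (∏ j ∈ u, W j) (∏ j ∈ u, D j)
      fun t => ∏ j ∈ u, F j t := by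
  classical
  induction u using Finset.induction with
  | empty => simpa using expandable_one (∅ : Set ℕ)
  | insert a u ha ih =>
    have hd' : Disjoint (S a) (⋃ j ∈ u, S j) := Set.disjoint_iUnion₂_right.2 fun j hj =>
      hd (mem_coe.2 (mem_insert_self a u)) (mem_coe.2 (mem_insert_of_mem hj))
        fun he => ha (he ▸ hj)
    simp only [prod_insert ha, Finset.set_biUnion_insert]
    exact (h a (mem_insert_self a u)).mul (ih (fun j hj => h j (mem_insert_of_mem hj))
      (hd.mono fun j hj => mem_coe.2 (mem_insert_of_mem (mem_coe.1 hj)))) hd'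

/-- **The mean value.** -/
theorem Expandable.norm_integral_sub_le (h : Expandable S N W D F) (hN : 0 ≤ N) (T : ℝ) :
    ‖(∫ t in T..2 * T, F t) - ((T * D : ℝ) : ℂ)‖ ≤ 2 * (N + 1) * W := by
  obtain ⟨ι, s, c, n, m, h1, h2, h3, h4⟩ := h
  simp only [h4]
  have hc : ∀ i, Continuous fun t => c i * wave (Real.log (m i) - Real.log (n i)) t :=
    fun i => continuous_const.mul (continuous_wave _)
  rw [intervalIntegral.integral_finsetSum fun i _ => (hc i).intervalIntegrable _ _,
    Complex.ofReal_mul, ← h3,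
    mul_sum, ← sum_sub_distrib]
  simp only [intervalIntegral.integral_const_mul]
  refine (norm_sum_le_of_le _ (n := fun i => 2 * (N + 1) * ‖c i‖) fun i hi => ?_).trans
    ((mul_sum _ _ _).symm.trans_le (mul_le_mul_of_nonneg_left h2 (by positivity)))
  obtain ⟨a1, a2, a3, a4⟩ := h1 i hi
  by_cases he : n i = m i
  · rw [if_pos he, he, sub_self]
    simp only [wave_zero, intervalIntegral.integral_const, Complex.real_smul, mul_one]
    rw [show c i * ((2 * T - T : ℝ) : ℂ) - (T : ℂ) * c i = 0 by push_cast; ring, norm_zero]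
    positivity
  · rw [if_neg he, mul_zero, sub_zero, norm_mul, mul_comm]
    refine mul_le_mul_of_nonneg_right ?_ (norm_nonneg _)
    have hsep := inv_le_abs_log_sub (N := ⌊N⌋₊) (Nat.pos_of_ne_zero a1.1) (Nat.le_floor a3)
      (Nat.pos_of_ne_zero a2.1) he
    rw [abs_sub_comm] at hsep
    have hne : Real.log (m i) - Real.log (n i) ≠ 0 := fun h0 => by
      rw [h0, abs_zero] at hsep
      exact absurd hsep (not_le.2 (by positivity))
    refine (norm_integral_wave_le hne _ _).trans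
      ((div_le_div_of_nonneg_left (by norm_num) (by positivity) hsep).trans ?_)
    rw [div_div_eq_mul_div, div_one]
    linarith [Nat.floor_le hN]

/-- A real function with such an expansion. -/
theorem Expandable.integral_le {f : ℝ → ℝ} (h : Expandable S N W D fun t => (f t : ℂ))
    (hN : 0 ≤ N) (T : ℝ) : ∫ t in T..2 * T, f t ≤ T * D + 2 * (N + 1) * W := by
  have h1 := (Complex.re_le_norm _).trans (h.norm_integral_sub_le hN T)
  rw [intervalIntegral.integral_ofReal, Complex.sub_re, Complex.ofReal_re, Complex.ofReal_re] at h1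
  linarith

/-- `P ^ a conj P ^ b` at the time `e t`. -/
theorem expandable_pow_mul_conj {P : Finset ℕ} {r : ℕ → ℝ} (hP : ∀ p ∈ P, p.Prime) {B : ℝ}
    (hB1 : 1 ≤ B) {e : ℕ} (he : e ≠ 0) (hB : ∀ p ∈ P, (p : ℝ) ^ e ≤ B) (hr : ∀ p ∈ P, 0 ≤ r p)
    {a b q : ℕ} (ha : a ≤ q) (hb : b ≤ q) :
    Expandable ↑P (B ^ q) ((∑ p ∈ P, r p) ^ (a + b)) (diagPairs P r a b)
      fun t => primePoly P r ((e : ℝ) * t) ^ a * conj (primePoly P r ((e : ℝ) * t)) ^ b := by
  have hfac : ∀ {j : ℕ} {f : Fin j → ℕ}, f ∈ tuples P j → Factored ↑P ((∏ i, f i) ^ e) :=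
    fun {j f} hf => ⟨pow_ne_zero _ (prod_pos_of_mem hP hf).ne', fun p hp hd => by
      obtain ⟨i, -, hi⟩ := (hp.prime.dvd_finsetProd_iff f).1 (hp.dvd_of_dvd_pow hd)
      exact mem_coe.2 (((Nat.prime_dvd_prime_iff_eq hp (hP _ (mem_tuples.1 hf i))).1 hi).symm ▸
        mem_tuples.1 hf i)⟩
  have hle : ∀ {j : ℕ} {f : Fin j → ℕ}, j ≤ q → f ∈ tuples P j →
      (((∏ i, f i) ^ e : ℕ) : ℝ) ≤ B ^ q := fun {j f} hj hf => by
    push_cast
    rw [← prod_pow]
    refine (prod_le_prod (fun i _ => by positivity) fun i _ => hB _ (mem_tuples.1 hf i)).trans ?_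
    simpa using pow_le_pow_right₀ hB1 hj
  refine ⟨(Fin a → ℕ) × (Fin b → ℕ), tuples P a ×ˢ tuples P b,
    fun x => ((tupleWeight r x.1 * tupleWeight r x.2 : ℝ) : ℂ),
    fun x => (∏ i, x.1 i) ^ e, fun x => (∏ i, x.2 i) ^ e, fun x hx => ?_, le_of_eq ?_, ?_,
    fun t => ?_⟩
  · rw [mem_product] at hx
    exact ⟨hfac hx.1, hfac hx.2, hle ha hx.1, hle hb hx.2⟩
  · rw [pow_add, ← sum_tupleWeight, ← sum_tupleWeight, sum_mul_sum, ← sum_product']
    refine sum_congr rfl fun x hx => ?_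
    rw [mem_product] at hx
    rw [Complex.norm_real, Real.norm_of_nonneg
      (mul_nonneg (tupleWeight_nonneg hr hx.1) (tupleWeight_nonneg hr hx.2))]
  · rw [diagPairs, Complex.ofReal_sum, sum_product]
    refine sum_congr rfl fun f _ => ?_
    rw [Complex.ofReal_sum]
    refine sum_congr rfl fun g _ => ?_
    simp only [Nat.pow_left_inj he]
    split_ifs <;> simp
  · simp only [primePoly_pow_mul_conj hP]
    rw [sum_product]
    refine sum_congr rfl fun f _ => sum_congr rfl fun g _ => ?_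
    refine congrArg (_ * ·) ?_
    simp only [Nat.cast_pow, Real.log_pow, wave]
    push_cast
    ring_nf

end FA.SharpMoments
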